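import Mathlib

/-!
# S48 / IGUSA1 / DEGREE : abstract decomposition group argument (Mathlib only)

`R` a commutative ring, `φ : G →* RingAut R` an action, `ρ : R →+* Ω` a "reduction" to a field.
`Stab φ ρ` is the decomposition group of the prime `ker ρ`.
-/

set_option autoImplicit false

namespace Fermat.Agent.S48.Igusa1.Deg

variable {R Ω G : Type*} [CommRing R] [Field Ω] [Group G] (φ : G →* RingAut R) (ρ : R →+* Ω)

/-- The decomposition group of `ker ρ`. -/
def Stab : Subgroup G where
  carrier := {g | ∀ x, ρ (φ g x) = 0 ↔ ρ x = 0}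
  one_mem' := by
    intro x
    rw [map_one]
    rfl
  mul_mem' := by
    intro a b ha hb x
    rw [map_mul, RingAut.mul_apply, ha, hb]
  inv_mem' := by
    intro a ha x
    have h := ha (φ a⁻¹ x)
    rw [← RingAut.mul_apply, ← map_mul, mul_inv_cancel, map_one] at h
    exact h.symm

theorem mem_Stab {g : G} : g ∈ Stab φ ρ ↔ ∀ x, ρ (φ g x) = 0 ↔ ρ x = 0 := Iff.rfl

end Fermat.Agent.S48.Igusa1.Deg
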