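import Fermat.Agent.S48.Igusa1.Deg.Abs

/-!
# S48 / IGUSA1 / DEGREE : Artin count (Mathlib only)
-/

set_option autoImplicit false

namespace Fermat.Agent.S48.Igusa1.Deg

variable {R Ω G : Type*} [CommRing R] [Field Ω] [Group G] (φ : G →* RingAut R) (ρ : R →+* Ω)

/-- **(L3a)** Artin: a group acting faithfully modulo `ker` on `E`, trivially on `E₀`.

PROOF. If `a.ker.index = 0` trivial.  Otherwise `a.range` is finite of cardinality `a.ker.index`
(`Subgroup.index_ker`), `E₀ ≤ fixedField a.range`,
`finrank (fixedField a.range) E = card a.range` (`IntermediateField.finrank_fixedField_eq_card`),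
and `finrank E₀ E = finrank E₀ (fixedField ..) * finrank (fixedField ..) E`
(e.g. `IntermediateField.relfinrank_mul_relfinrank`, or `Module.finrank_mul_finrank` after
`IntermediateField.restrict`/`extendScalars`), the first factor being `≥ 1`. -/
theorem index_ker_le_finrank {k E : Type*} [Field k] [Field E] [Algebra k E]
    (a : G →* (E ≃ₐ[k] E)) (E₀ : IntermediateField k E) (hfix : ∀ g, ∀ x ∈ E₀, a g x = x)
    [FiniteDimensional E₀ E] : a.ker.index ≤ Module.finrank E₀ E := by
  classical
  by_cases h0 : a.ker.index = 0
  · rw [h0]; exact Nat.zero_le _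
  have hc : Nat.card a.range = a.ker.index := (Subgroup.index_ker a).symm
  have : Finite a.range := Nat.finite_of_card_ne_zero (by rw [hc]; exact h0)
  let _ : Fintype a.range := Fintype.ofFinite _
  have hA : Module.finrank (IntermediateField.fixedField a.range) E = Fintype.card a.range :=
    FixedPoints.finrank_eq_card a.range E
  have hle : E₀ ≤ IntermediateField.fixedField a.range := by
    intro x hx
    rw [IntermediateField.mem_fixedField_iff]
    rintro _ ⟨g, rfl⟩
    exact hfix g x hx
  rw [← hc, Nat.card_eq_fintype_card, ← hA]
  exact IntermediateField.finrank_le_of_le_left hle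

/-- **(L3b)** In case of equality the extension is Galois.

PROOF. As in (L3a) `E₀ ≤ fixedField a.range` with the same (finite, non zero) `finrank _ E`, so they are
equal (`IntermediateField.eq_of_le_of_finrank_eq'`); `IsGalois (fixedField H) E`
(`IsGalois.of_fixedField`).  -/
theorem isGalois_of_finrank_eq {k E : Type*} [Field k] [Field E] [Algebra k E]
    (a : G →* (E ≃ₐ[k] E)) (E₀ : IntermediateField k E) (hfix : ∀ g, ∀ x ∈ E₀, a g x = x)
    (h : Module.finrank E₀ E = a.ker.index) (h0 : a.ker.index ≠ 0) : IsGalois E₀ E := by
  classical
  have hc : Nat.card a.range = a.ker.index := (Subgroup.index_ker a).symm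
  have : Finite a.range := Nat.finite_of_card_ne_zero (by rw [hc]; exact h0)
  let _ : Fintype a.range := Fintype.ofFinite _
  have hA : Module.finrank (IntermediateField.fixedField a.range) E = Fintype.card a.range :=
    FixedPoints.finrank_eq_card a.range E
  have hle : E₀ ≤ IntermediateField.fixedField a.range := by
    intro x hx
    rw [IntermediateField.mem_fixedField_iff]
    rintro _ ⟨g, rfl⟩
    exact hfix g x hx
  have : FiniteDimensional E₀ E :=
    Module.finite_of_finrank_pos (Nat.pos_of_ne_zero (by rw [h]; exact h0))
  have heq : E₀ = IntermediateField.fixedField a.range :=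
    IntermediateField.eq_of_le_of_finrank_eq' hle (by rw [hA, ← Nat.card_eq_fintype_card, hc, h])
  rw [heq]
  exact IsGalois.of_fixed_field E a.range

end Fermat.Agent.S48.Igusa1.Deg
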