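import Fermat.Agent.S48.Igusa1.Deg.Abs

/-!
# S48 / IGUSA1 / DEGREE : invariant polynomials, induced action on the residue field (Mathlib only)
-/

set_option autoImplicit false

namespace Fermat.Agent.S48.Igusa1.Deg

variable {R Ω G : Type*} [CommRing R] [Field Ω] [Group G] (φ : G →* RingAut R) (ρ : R →+* Ω)

/-- **(L2a)** A root of a `G`-invariant polynomial with constant term `1` is a unit for all
`ρ ∘ φ g`.

PROOF. `p.map (φ g) = p` (coefficientwise), so `p.eval (φ g y) = φ g (p.eval y) = 0`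
(`Polynomial.eval_map`, `Polynomial.hom_eval₂` / `Polynomial.eval₂_hom`); apply `ρ`:
`p.eval₂ ρ (ρ (φ g y)) = 0`; if `ρ (φ g y) = 0` this is `ρ (p.coeff 0) = 1`
(`Polynomial.eval₂_at_zero`). -/
theorem ne_zero_of_poly (p : Polynomial R) (hfix : ∀ g i, φ g (p.coeff i) = p.coeff i)
    (h0 : p.coeff 0 = 1) (y : R) (hy : p.eval y = 0) (g : G) : ρ (φ g y) ≠ 0 := by
  intro hz
  let ψ : R →+* Ω := ρ.comp (φ g : R →+* R)
  have h1 : p.eval₂ ψ (ψ y) = ψ (p.eval y) := Polynomial.eval₂_at_apply ψ y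
  have h2 : ψ y = 0 := hz
  rw [h2, hy, map_zero, Polynomial.eval₂_at_zero, h0, map_one] at h1
  exact one_ne_zero h1

/-- **(L2b) The induced action on the residue field.**

PROOF. For `g : G` the map `ρ x ↦ ρ (φ g x)` is well defined on `E = ρ(R)`
(`ρ x = ρ x' → ρ (φ g (x - x')) = 0` because `g ∈ Stab`), it is a ring homomorphism, `k`-linear by
`hk`, with inverse given by `g⁻¹`.  Use `Function.surjInv`/`Classical.choose` of `hE` to define it,
then prove the characterising formula first and deduce everything else from it. -/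
theorem exists_actRes {k Ω' : Type*} [Field k] [Field Ω'] [Algebra k Ω'] (ρ : R →+* Ω')
    (E : IntermediateField k Ω') (hE : ∀ z, z ∈ E ↔ ∃ x, ρ x = z)
    (hk : ∀ c : k, ∃ x, ρ x = algebraMap k Ω' c ∧ ∀ g, φ g x = x)
    (hS : Stab φ ρ = ⊤) :
    ∃ a : G →* (E ≃ₐ[k] E), ∀ g x (hx : ρ x ∈ E), ((a g ⟨ρ x, hx⟩ : E) : Ω') = ρ (φ g x) := by
  classical
  have hmem : ∀ x, ρ x ∈ E := fun x => (hE _).2 ⟨x, rfl⟩
  let ρE : R →+* E := ρ.codRestrict E.toSubfield.toSubring hmem
  have hρE : ∀ x, ((ρE x : E) : Ω') = ρ x := fun x => rfl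
  have hsurj : Function.Surjective ρE := by
    rintro ⟨z, hz⟩
    obtain ⟨x, hx⟩ := (hE z).1 hz
    exact ⟨x, Subtype.ext hx⟩
  have hzero : ∀ x, ρE x = 0 ↔ ρ x = 0 := by
    intro x
    rw [← hρE x]
    exact (ZeroMemClass.coe_eq_zero (x := ρE x)).symm
  have hker : ∀ g : G, RingHom.ker ρE ≤ RingHom.ker (ρE.comp (φ g : R →+* R)) := by
    intro g x hx
    rw [RingHom.mem_ker] at hx ⊢
    have hg : g ∈ Stab φ ρ := by rw [hS]; trivial
    show ρE (φ g x) = 0
    rw [hzero, (mem_Stab φ ρ).1 hg x, ← hzero]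
    exact hx
  let F : G → (E →+* E) := fun g => ρE.liftOfSurjective hsurj ⟨ρE.comp (φ g : R →+* R), hker g⟩
  have hF : ∀ g x, F g (ρE x) = ρE (φ g x) := fun g x =>
    RingHom.liftOfSurjective_comp_apply ρE hsurj ⟨ρE.comp (φ g : R →+* R), hker g⟩ x
  have hFmul : ∀ g h z, F (g * h) z = F g (F h z) := by
    intro g h z
    obtain ⟨x, rfl⟩ := hsurj z
    rw [hF, hF, hF, map_mul, RingAut.mul_apply]
  have hFone : ∀ z, F 1 z = z := by
    intro z
    obtain ⟨x, rfl⟩ := hsurj z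
    rw [hF, map_one]
    rfl
  have hFk : ∀ g (c : k), F g (algebraMap k E c) = algebraMap k E c := by
    intro g c
    obtain ⟨x, hx, hfix⟩ := hk c
    have h1 : algebraMap k E c = ρE x := Subtype.ext hx.symm
    rw [h1, hF, hfix]
  let A : G → (E ≃ₐ[k] E) := fun g =>
    { toFun := F g
      invFun := F g⁻¹
      left_inv := fun z => by rw [← hFmul, inv_mul_cancel, hFone]
      right_inv := fun z => by rw [← hFmul, mul_inv_cancel, hFone]
      map_mul' := map_mul (F g)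
      map_add' := map_add (F g)
      commutes' := hFk g }
  have hA : ∀ g z, A g z = F g z := fun g z => rfl
  refine ⟨{ toFun := A, map_one' := ?_, map_mul' := ?_ }, fun g x hx => ?_⟩
  · ext z
    rw [hA, hFone]
    rfl
  · intro g h
    ext z
    rw [AlgEquiv.mul_apply, hA, hA, hA, hFmul]
  · show ((F g ⟨ρ x, hx⟩ : E) : Ω') = ρ (φ g x)
    have h1 : (⟨ρ x, hx⟩ : E) = ρE x := rfl
    rw [h1, hF, hρE]

end Fermat.Agent.S48.Igusa1.Deg
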