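import Fermat.Agent.S48.Igusa1.Deg.Abs

/-!
# S48 / IGUSA1 / DEGREE : transitivity (prime avoidance) (Mathlib only)
-/

set_option autoImplicit false

namespace Fermat.Agent.S48.Igusa1.Deg

variable {R Ω G : Type*} [CommRing R] [Field Ω] [Group G] (φ : G →* RingAut R) (ρ : R →+* Ω)

/-- the prime `σ⁻¹ (ker ρ)`. -/
def AbsTrans_P (σ : RingAut R) : Ideal R := RingHom.ker (ρ.comp (σ : R →+* R))

theorem AbsTrans_mem_P {σ : RingAut R} {x : R} : x ∈ AbsTrans_P ρ σ ↔ ρ (σ x) = 0 := Iff.rfl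

instance AbsTrans_isPrime (σ : RingAut R) : (AbsTrans_P ρ σ).IsPrime :=
  RingHom.ker_isPrime _

/-- incomparability. -/
theorem AbsTrans_eq_of_le (hfield : ∀ x, ρ x ≠ 0 → ∃ y, ρ x * ρ y = 1) {σ τ : RingAut R}
    (h : AbsTrans_P ρ σ ≤ AbsTrans_P ρ τ) : AbsTrans_P ρ σ = AbsTrans_P ρ τ := by
  refine le_antisymm h fun x hx => ?_
  by_contra hxσ
  rw [AbsTrans_mem_P] at hxσ
  obtain ⟨y, hy⟩ := hfield _ hxσ
  have h1 : x * σ.symm y - 1 ∈ AbsTrans_P ρ σ := by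
    rw [AbsTrans_mem_P, map_sub, map_mul, map_one, RingEquiv.apply_symm_apply, map_sub, map_mul,
      map_one, hy, sub_self]
  have h2 := h h1
  have h3 : (1 : R) ∈ AbsTrans_P ρ τ := by
    have h4 : x * σ.symm y ∈ AbsTrans_P ρ τ := Ideal.mul_mem_right _ _ hx
    have := (AbsTrans_P ρ τ).sub_mem h4 h2
    simpa using this
  exact (AbsTrans_isPrime ρ τ).ne_top ((Ideal.eq_top_iff_one _).mpr h3)

/-- **(L1) Transitivity.**  `ρ(R)` is a field; `B ≤ G` acts through a finite group; a `B`-invariant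
element which is a unit for `ρ` stays a unit for all `ρ ∘ φ g`.  Then `G = Stab · B`. -/
theorem exists_mul_inv_mem_Stab (hfield : ∀ x, ρ x ≠ 0 → ∃ y, ρ x * ρ y = 1)
    (B : Subgroup G) (hBfin : (Set.range fun b : B => φ b).Finite)
    (hB : ∀ y, (∀ b ∈ B, φ b y = y) → ρ y ≠ 0 → ∀ g, ρ (φ g y) ≠ 0) (g : G) :
    ∃ b ∈ B, g * b⁻¹ ∈ Stab φ ρ := by
  classical
  set s : Finset (RingAut R) := hBfin.toFinset with hs
  have hmem : ∀ σ, σ ∈ s ↔ ∃ b ∈ B, φ b = σ := by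
    intro σ
    rw [hs, Set.Finite.mem_toFinset]
    constructor
    · rintro ⟨b, rfl⟩
      exact ⟨b.1, b.2, rfl⟩
    · rintro ⟨b, hb, rfl⟩
      exact ⟨⟨b, hb⟩, rfl⟩
  -- key: `P g = P b` for some `b`
  have key : ∃ b ∈ B, AbsTrans_P ρ (φ g) = AbsTrans_P ρ (φ b) := by
    by_contra hcon
    push Not at hcon
    have hnot : ¬ ((AbsTrans_P ρ (φ g) : Set R) ⊆ ⋃ σ ∈ (s : Set (RingAut R)), (AbsTrans_P ρ σ : Set R)) := by
      rw [Ideal.subset_union_prime (1 : RingAut R) 1 (fun σ _ _ _ => AbsTrans_isPrime ρ σ)]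
      rintro ⟨σ, hσ, hle⟩
      obtain ⟨b, hb, rfl⟩ := (hmem σ).mp hσ
      exact hcon b hb (AbsTrans_eq_of_le ρ hfield hle)
    rw [Set.not_subset] at hnot
    obtain ⟨x, hxg, hx⟩ := hnot
    have hx' : ∀ σ ∈ s, ρ (σ x) ≠ 0 := by
      intro σ hσ h0
      apply hx
      simp only [Set.mem_iUnion]
      exact ⟨σ, hσ, h0⟩
    set y : R := ∏ σ ∈ s, σ x with hy
    have hyfix : ∀ b ∈ B, φ b y = y := by
      intro b hb
      rw [hy, map_prod]
      refine Finset.prod_bij (fun σ _ => φ b * σ) ?_ ?_ ?_ ?_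
      · intro σ hσ
        obtain ⟨c, hc, rfl⟩ := (hmem σ).mp hσ
        exact (hmem _).mpr ⟨b * c, B.mul_mem hb hc, map_mul φ b c⟩
      · intro σ _ τ _ h
        exact mul_left_cancel h
      · intro τ hτ
        obtain ⟨c, hc, rfl⟩ := (hmem τ).mp hτ
        refine ⟨φ (b⁻¹ * c), (hmem _).mpr ⟨b⁻¹ * c, B.mul_mem (B.inv_mem hb) hc, rfl⟩, ?_⟩
        rw [← map_mul, mul_inv_cancel_left]
      · intro σ _
        rfl
    have hy0 : ρ y ≠ 0 := by
      rw [hy, map_prod]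
      exact Finset.prod_ne_zero_iff.mpr hx'
    have h1 : (1 : RingAut R) ∈ s := (hmem 1).mpr ⟨1, B.one_mem, map_one φ⟩
    have hdvd : x ∣ y := by
      have := Finset.dvd_prod_of_mem (fun σ : RingAut R => σ x) h1
      simpa using this
    obtain ⟨z, hz⟩ := hdvd
    apply hB y hyfix hy0 g
    rw [hz, map_mul, map_mul, (AbsTrans_mem_P ρ).mp hxg, zero_mul]
  obtain ⟨b, hb, hP⟩ := key
  refine ⟨b, hb, fun x => ?_⟩
  have h1 : φ b⁻¹ x ∈ AbsTrans_P ρ (φ g) ↔ φ b⁻¹ x ∈ AbsTrans_P ρ (φ b) := by rw [hP]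
  rw [AbsTrans_mem_P, AbsTrans_mem_P, ← RingAut.mul_apply, ← RingAut.mul_apply, ← map_mul,
    ← map_mul, mul_inv_cancel, map_one] at h1
  exact h1

end Fermat.Agent.S48.Igusa1.Deg
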