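import Fermat.Agent.S48.Igusa1.Deg.StabTop

/-!
# S48 / IGUSA1 / DEGREE (L13) : the action of `SL₂(ℤ)` on `FFullC k M`
-/

set_option autoImplicit false
set_option linter.unusedSectionVars false
set_option synthInstance.maxHeartbeats 400000

open ModularCurve Matrix Polynomial
open scoped MatrixGroups

noncomputable section

namespace Fermat.Agent.S48.Igusa1.Deg

open Fermat.Agent.GAL.Gauss Fermat.Agent.S48.Full

variable {K : Type} [Field K] [IsAlgClosed K] (ι : K →+* ℂ) (A : ValuationSubring K)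
  (M : ℕ) [NeZero M]

theorem exists_actK (hM : ((M : ℕ) : IsLocalRing.ResidueField ↥A) ≠ 0) :
    ∃ a : SL(2, ℤ) →* (FS (IsLocalRing.ResidueField ↥A) (gensC (IsLocalRing.ResidueField ↥A) M)
        ≃ₐ[IsLocalRing.ResidueField ↥A]
        FS (IsLocalRing.ResidueField ↥A) (gensC (IsLocalRing.ResidueField ↥A) M)),
      ∀ g x (hx : res1 A M hM x ∈
          FS (IsLocalRing.ResidueField ↥A) (gensC (IsLocalRing.ResidueField ↥A) M)),
        ((a g ⟨res1 A M hM x, hx⟩ :
          FS (IsLocalRing.ResidueField ↥A) (gensC (IsLocalRing.ResidueField ↥A) M)) :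
            LaurentSeries (IsLocalRing.ResidueField ↥A)) = res1 A M hM (actR ι A M g x) :=
  exists_actRes (actR ι A M) (res1 A M hM)
    (FS (IsLocalRing.ResidueField ↥A) (gensC (IsLocalRing.ResidueField ↥A) M))
    (mem_FFullC_iff ι A M hM) (exists_res1_algebraMap ι A M hM) (Stab_eq_top ι A M hM)

/-- **The action of `SL₂(ℤ)` on `FFullC k M`.** -/
def actK (hM : ((M : ℕ) : IsLocalRing.ResidueField ↥A) ≠ 0) :
    SL(2, ℤ) →* (FS (IsLocalRing.ResidueField ↥A) (gensC (IsLocalRing.ResidueField ↥A) M)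
        ≃ₐ[IsLocalRing.ResidueField ↥A]
        FS (IsLocalRing.ResidueField ↥A) (gensC (IsLocalRing.ResidueField ↥A) M)) :=
  (exists_actK ι A M hM).choose

theorem coe_actK_res1 (hM : ((M : ℕ) : IsLocalRing.ResidueField ↥A) ≠ 0) (g : SL(2, ℤ))
    (x : ↥(R1 A M)) (hx : res1 A M hM x ∈
      FS (IsLocalRing.ResidueField ↥A) (gensC (IsLocalRing.ResidueField ↥A) M)) :
    ((actK ι A M hM g ⟨res1 A M hM x, hx⟩ :
      FS (IsLocalRing.ResidueField ↥A) (gensC (IsLocalRing.ResidueField ↥A) M)) :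
        LaurentSeries (IsLocalRing.ResidueField ↥A)) = res1 A M hM (actR ι A M g x) :=
  (exists_actK ι A M hM).choose_spec g x hx

/-- **(L13a)** `x := ⟨⟨hVec K M ζ v, _⟩, gensF_subset_R1 ..⟩`, `res1_apply`, `IsZetaA.gRes_hVec`,
`coe_actR`, `actFull_hVec`. -/
theorem coe_actK_hVec (hM : ((M : ℕ) : IsLocalRing.ResidueField ↥A) ≠ 0) {ζ : Kˣ} {ζA : (↥A)ˣ}
    (hζ : IsZeta ι M ζ) (h : IsZetaA A M ζ ζA) (g : SL(2, ℤ)) {v : Fin 2 → ZMod M} (hv : v ≠ 0) :
    ((actK ι A M hM g ⟨hVec (IsLocalRing.ResidueField ↥A) M (zetaK A ζA) v,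
        IntermediateField.subset_adjoin _ _ (hVec_mem_gensC h.primk hv)⟩ :
      FS (IsLocalRing.ResidueField ↥A) (gensC (IsLocalRing.ResidueField ↥A) M)) :
        LaurentSeries (IsLocalRing.ResidueField ↥A)) =
      hVec (IsLocalRing.ResidueField ↥A) M (zetaK A ζA) (v ᵥ* redSL M g⁻¹) := by
  let x : ↥(R1 A M) := ⟨⟨hVec K M ζ v,
      IntermediateField.subset_adjoin K _ (hVec_mem_gensC hζ.isPrimitiveRoot hv)⟩,
    gensF_subset_R1 A M (hVec_mem_gensC hζ.isPrimitiveRoot hv)⟩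
  have hx1 : res1 A M hM x = hVec (IsLocalRing.ResidueField ↥A) M (zetaK A ζA) v := by
    rw [res1_apply]
    exact h.gRes_hVec hv
  have hx2 : res1 A M hM x ∈
      FS (IsLocalRing.ResidueField ↥A) (gensC (IsLocalRing.ResidueField ↥A) M) := by
    rw [hx1]
    exact IntermediateField.subset_adjoin _ _ (hVec_mem_gensC h.primk hv)
  have hx3 : (⟨hVec (IsLocalRing.ResidueField ↥A) M (zetaK A ζA) v,
        IntermediateField.subset_adjoin _ _ (hVec_mem_gensC h.primk hv)⟩ :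
      FS (IsLocalRing.ResidueField ↥A) (gensC (IsLocalRing.ResidueField ↥A) M))
      = ⟨res1 A M hM x, hx2⟩ := Subtype.ext hx1.symm
  rw [hx3, coe_actK_res1, res1_apply, ← h.gRes_hVec (vecMul_redSL_ne_zero hv g⁻¹)]
  congr 1
  apply Subtype.ext
  show (((actR ι A M g x : ↥(R1 A M)) : FS K (gensC K M)) : LaurentSeries K) = _
  rw [coe_actR]
  show ((actFull ι M g ⟨hVec K M ζ v,
      IntermediateField.subset_adjoin K _ (hVec_mem_gensC hζ.isPrimitiveRoot hv)⟩ :
        FS K (gensC K M)) : LaurentSeries K) = _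
  rw [actFull_hVec ι M hζ g hv]

/-- **(L13b)** `jFF` is fixed (`x := ⟨jFF K M, _⟩`, `gRes_jM`, `GenSet.act_jF`). -/
theorem actK_jFF (hM : ((M : ℕ) : IsLocalRing.ResidueField ↥A) ≠ 0) (g : SL(2, ℤ)) :
    actK ι A M hM g (jFF (IsLocalRing.ResidueField ↥A) M) = jFF (IsLocalRing.ResidueField ↥A) M := by
  let x : ↥(R1 A M) := ⟨jFF K M, gensF_subset_R1 A M (Or.inl rfl)⟩
  have hx1 : res1 A M hM x = jM (IsLocalRing.ResidueField ↥A) M := by
    rw [res1_apply]
    exact gRes_jM A M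
  have hx2 : res1 A M hM x ∈
      FS (IsLocalRing.ResidueField ↥A) (gensC (IsLocalRing.ResidueField ↥A) M) := by
    rw [hx1]
    exact jM_mem_FFullC _ M
  have hx3 : jFF (IsLocalRing.ResidueField ↥A) M = ⟨res1 A M hM x, hx2⟩ := Subtype.ext hx1.symm
  have hx4 : actR ι A M g x = x :=
    Subtype.ext ((genSet_full ι M).act_jF (stable_full ι M) g)
  apply Subtype.ext
  conv_lhs => rw [hx3]
  rw [coe_actK_res1, hx4, hx1]
  rfl

/-- **(L13b)** so `k(jFF)` is fixed pointwise. -/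
theorem actK_eq_self_of_mem (hM : ((M : ℕ) : IsLocalRing.ResidueField ↥A) ≠ 0) (g : SL(2, ℤ))
    (x : FS (IsLocalRing.ResidueField ↥A) (gensC (IsLocalRing.ResidueField ↥A) M))
    (hx : x ∈ IntermediateField.adjoin (IsLocalRing.ResidueField ↥A)
      {jFF (IsLocalRing.ResidueField ↥A) M}) : actK ι A M hM g x = x := by
  induction hx using IntermediateField.adjoin_induction with
  | mem y hy =>
    rw [Set.mem_singleton_iff.mp hy]
    exact actK_jFF ι A M hM g
  | algebraMap c => exact AlgEquiv.commutes _ c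
  | add x y _ _ hx hy => rw [map_add, hx, hy]
  | inv x _ hx => rw [map_inv₀, hx]
  | mul x y _ _ hx hy => rw [map_mul, hx, hy]

/-- **(L13c)** PROOF. `⊇`: for `g ∈ ± Γ(M)`, `actR g = 1` (`actFull_eq_self_of_mem`), every element of
`FFullC k M` is `res1 x` (`exists_res1_eq`), `coe_actK_res1`.  `⊆`: if `actK g = 1` then by
`coe_actK_hVec` and `Full.hVec_eq_iff k M h.primk`, `v ᵥ* redSL M g⁻¹ = v ∨ = -v` for all `v ≠ 0`:
`mem_GammaPM_of_forall`, so `g⁻¹ ∈ ± Γ(M)`. -/
theorem ker_actK (hM : ((M : ℕ) : IsLocalRing.ResidueField ↥A) ≠ 0) :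
    (actK ι A M hM).ker = GammaPM M := by
  ext g
  rw [MonoidHom.mem_ker]
  constructor
  · intro hg
    obtain ⟨ζ, hζ⟩ := exists_isZeta ι M
    obtain ⟨ζA, h⟩ := exists_isZetaA A M hM ζ hζ.isPrimitiveRoot
    have h1 : g⁻¹ ∈ GammaPM M := by
      apply mem_GammaPM_of_forall
      intro v hv0
      have hv : v ≠ 0 := by
        rintro rfl
        exact hv0 rfl
      have h2 := coe_actK_hVec ι A M hM hζ h g hv
      rw [hg] at h2
      exact (hVec_eq_iff _ M h.primk hv (vecMul_redSL_ne_zero hv g⁻¹)).mp h2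
    simpa using inv_mem h1
  · intro hg
    apply AlgEquiv.ext
    intro z
    obtain ⟨x, hx⟩ := exists_res1_eq ι A M hM z.1 z.2
    have hx2 : res1 A M hM x ∈
        FS (IsLocalRing.ResidueField ↥A) (gensC (IsLocalRing.ResidueField ↥A) M) := by
      rw [hx]; exact z.2
    have hz : z = ⟨res1 A M hM x, hx2⟩ := Subtype.ext hx.symm
    have hx4 : actR ι A M g x = x := Subtype.ext (actFull_eq_self_of_mem ι M hg _)
    apply Subtype.ext
    rw [AlgEquiv.one_apply]
    conv_lhs => rw [hz]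
    rw [coe_actK_res1, hx4, hx]

end Fermat.Agent.S48.Igusa1.Deg
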