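import Fermat.Agent.S48.Full.InstB
import Fermat.Agent.S48.Full.ActGalois
import Fermat.Agent.GAL.Gauss.Main

/-!
# S48 / IGUSA1 / DEGREE : definitions

`K` algebraically closed with `ι : K →+* ℂ`, `A` a valuation ring of `K` with residue field `k`,
`M ≠ 0` in `k`.  `F = FS K (gensC K M) = FFullC K M`.

* `OF A M`   : the Gauss ring `F ∩ gRing A`, `resOF : OF →+* k((t))`;
* `R00 A M`  : `K(j(t^M)) ∩ gRing A`;
* `R1 A M`   : the subring of `F` generated by `R00` and the generators `gensC K M`.
-/

set_option autoImplicit false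
set_option linter.unusedSectionVars false

open ModularCurve
open scoped MatrixGroups

noncomputable section

namespace Fermat.Agent.S48.Igusa1.Deg

open Fermat.Agent.GAL.Gauss Fermat.Agent.S48.Full

variable {K : Type} [Field K] (A : ValuationSubring K) (M : ℕ) [NeZero M]

/-- `j(t^M)` as an element of `FFullC L M`. -/
def jFF (L : Type) [Field L] (M : ℕ) [NeZero M] : FS L (gensC L M) :=
  ⟨jM L M, jM_mem_FFullC L M⟩

/-- The Gauss ring of `F`. -/
def OF : Subring (FS K (gensC K M)) :=
  (gRing A).comap (algebraMap (FS K (gensC K M)) (LaurentSeries K))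

theorem mem_OF {x : FS K (gensC K M)} : x ∈ OF A M ↔ (x : LaurentSeries K) ∈ gRing A := Iff.rfl

/-- The reduction map on the Gauss ring of `F`. -/
def resOF : ↥(OF A M) →+* LaurentSeries (IsLocalRing.ResidueField ↥A) :=
  (gRes A).comp (((algebraMap (FS K (gensC K M)) (LaurentSeries K)).comp
    (OF A M).subtype).codRestrict (gRing A) (fun x => x.2))

theorem resOF_apply (x : ↥(OF A M)) :
    resOF A M x = gRes A ⟨((x : FS K (gensC K M)) : LaurentSeries K), x.2⟩ := rfl

/-- The Gauss ring of `K(j(t^M))`. -/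
def R00 : Subring (FS K (gensC K M)) :=
  OF A M ⊓ (IntermediateField.adjoin K {jFF K M}).toSubring

theorem mem_R00 {x : FS K (gensC K M)} :
    x ∈ R00 A M ↔ (x : LaurentSeries K) ∈ gRing A ∧ x ∈ IntermediateField.adjoin K {jFF K M} :=
  Iff.rfl

/-- The generators, as elements of `F`. -/
def gensF : Set (FS K (gensC K M)) := {x | (x : LaurentSeries K) ∈ gensC K M}

/-- `R00[h_v]`. -/
def R1 : Subring (FS K (gensC K M)) := Subring.closure ((R00 A M : Set (FS K (gensC K M))) ∪ gensF M)

theorem R00_le_R1 : R00 A M ≤ R1 A M := fun _ hx => Subring.subset_closure (Or.inl hx)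

theorem gensF_subset_R1 : gensF M ⊆ (R1 A M : Set (FS K (gensC K M))) :=
  fun _ hx => Subring.subset_closure (Or.inr hx)

end Fermat.Agent.S48.Igusa1.Deg
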