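import Mathlib

/-!
# S48 / IGUSA1 / DEGREE : group theory in `SL₂(ℤ)`
-/

set_option autoImplicit false

open scoped MatrixGroups

namespace Fermat.Agent.S48.Igusa1.Deg

/-- **(L4a)** The conjugates of `T` generate `SL₂(ℤ)`.

PROOF. `SpecialLinearGroup.SL2Z_generators : Subgroup.closure {S, T} = ⊤` (name may differ:
`Matrix.SpecialLinearGroup.SL2Z_generators`).  `T ∈ H` (`g = 1`), `L := S * T⁻¹ * S⁻¹ = !![1,0;1,1] ∈ H`
(inverse of the conjugate by `S`) and `S = T⁻¹ * L * T⁻¹` (check entrywise: `ext i j; fin_cases i <;>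
fin_cases j <;> simp [ModularGroup.S, ModularGroup.T, Matrix.mul_fin_two ...]`). -/
theorem eq_top_of_conj_T (H : Subgroup SL(2, ℤ))
    (h : ∀ g : SL(2, ℤ), g * ModularGroup.T * g⁻¹ ∈ H) : H = ⊤ := by
  have hT : ModularGroup.T ∈ H := by simpa using h 1
  have hL : ModularGroup.S * ModularGroup.T * ModularGroup.S⁻¹ ∈ H := h _
  have h0 : ModularGroup.T * ModularGroup.S * ModularGroup.T * ModularGroup.S * ModularGroup.T
      = ModularGroup.S := by
    apply Subtype.ext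
    simp only [Matrix.SpecialLinearGroup.coe_mul, ModularGroup.coe_S, ModularGroup.coe_T,
      Matrix.mul_fin_two]
    norm_num
  have h1 : ModularGroup.T * ModularGroup.S * ModularGroup.T *
      (ModularGroup.S * ModularGroup.T * ModularGroup.S⁻¹) = 1 := by
    rw [show ModularGroup.T * ModularGroup.S * ModularGroup.T *
      (ModularGroup.S * ModularGroup.T * ModularGroup.S⁻¹) =
      (ModularGroup.T * ModularGroup.S * ModularGroup.T * ModularGroup.S * ModularGroup.T) *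
        ModularGroup.S⁻¹ by group, h0, mul_inv_cancel]
  have h2 : ModularGroup.T * ModularGroup.S * ModularGroup.T ∈ H := by
    rw [eq_inv_of_mul_eq_one_left h1]
    exact H.inv_mem hL
  have hS' : ModularGroup.S ∈ H := by
    have : ModularGroup.S = ModularGroup.T⁻¹ *
      (ModularGroup.T * ModularGroup.S * ModularGroup.T) * ModularGroup.T⁻¹ := by group
    rw [this]
    exact H.mul_mem (H.mul_mem (H.inv_mem hT) h2) (H.inv_mem hT)
  rw [eq_top_iff, ← SpecialLinearGroup.SL2Z_generators, Subgroup.closure_le]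
  rintro x (rfl | rfl)
  · exact hS'
  · exact hT

/-- **(L4b)** For `b ∈ Γ₀(M)`: `b T b⁻¹ ≡ T^(a²) mod M`, `a = b 0 0`.

PROOF. `b T b⁻¹ = 1 + !![-a c, a²; -c², a c]` with `c = b 1 0 ≡ 0 mod M`.  So
`b * T * b⁻¹ * (T ^ (a ^ 2 : ℤ))⁻¹ ∈ Γ(M)` (`CongruenceSubgroup.Gamma_mem`; `ModularGroup.coe_T_zpow`;
`Matrix.SpecialLinearGroup.coe_inv`, `Matrix.adjugate_fin_two`; reduce mod `M` with
`(ZMod.intCast_zmod_eq_zero_iff_dvd ..)` / `CongruenceSubgroup.Gamma0_mem`). -/
theorem conj_T_mem (M : ℕ) (H : Subgroup SL(2, ℤ)) (hT : ModularGroup.T ∈ H)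
    (hΓ : CongruenceSubgroup.Gamma M ≤ H) (b : SL(2, ℤ)) (hb : b ∈ CongruenceSubgroup.Gamma0 M) :
    b * ModularGroup.T * b⁻¹ ∈ H := by
  have hc : ((b 1 0 : ℤ) : ZMod M) = 0 := CongruenceSubgroup.Gamma0_mem.1 hb
  have key : b * ModularGroup.T * b⁻¹ * (ModularGroup.T ^ ((b 0 0) ^ 2 : ℤ))⁻¹
      ∈ CongruenceSubgroup.Gamma M := by
    rw [CongruenceSubgroup.Gamma_mem]
    have hdet : b 0 0 * b 1 1 - b 0 1 * b 1 0 = 1 := by
      have := b.det_coe
      rw [Matrix.det_fin_two] at this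
      exact this
    have hdet' : ((b 0 0 : ℤ) : ZMod M) * ((b 1 1 : ℤ) : ZMod M) = 1 := by
      have := congrArg (Int.cast : ℤ → ZMod M) hdet
      push_cast at this
      rw [hc] at this
      simpa using this
    have eb : b.1 = !![b 0 0, b 0 1; b 1 0, b 1 1] := Matrix.eta_fin_two _
    have e : (b * ModularGroup.T * b⁻¹ * (ModularGroup.T ^ ((b 0 0) ^ 2 : ℤ))⁻¹).1
        = (!![b 0 0, b 0 1; b 1 0, b 1 1] * !![1, 1; 0, 1] * !![b 1 1, - b 0 1; - b 1 0, b 0 0])
          * !![1, -(b 0 0)^2; 0, 1] := by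
      rw [Matrix.SpecialLinearGroup.coe_mul, Matrix.SpecialLinearGroup.coe_mul,
        Matrix.SpecialLinearGroup.coe_mul, Matrix.SpecialLinearGroup.coe_inv,
        Matrix.SpecialLinearGroup.coe_inv, ModularGroup.coe_T_zpow, ModularGroup.coe_T,
        Matrix.adjugate_fin_two, Matrix.adjugate_fin_two, ← eb]
      simp
    generalize b 0 0 = a0 at *
    generalize b 0 1 = b0 at *
    generalize b 1 0 = c0 at *
    generalize b 1 1 = d0 at *
    rw [e]
    simp only [Matrix.mul_fin_two, Matrix.of_apply, Matrix.cons_val_zero, Matrix.cons_val_one,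
      Matrix.cons_val', Matrix.cons_val_fin_one]
    push_cast
    rw [hc]
    refine ⟨?_, ?_, ?_, ?_⟩
    · linear_combination hdet'
    · linear_combination (-(a0 : ZMod M) ^ 2) * hdet'
    · ring
    · linear_combination hdet'
  have h2 : b * ModularGroup.T * b⁻¹ =
      (b * ModularGroup.T * b⁻¹ * (ModularGroup.T ^ ((b 0 0) ^ 2 : ℤ))⁻¹) *
        ModularGroup.T ^ ((b 0 0) ^ 2 : ℤ) := by group
  rw [h2]
  exact H.mul_mem (hΓ key) (H.zpow_mem hT _)

/-- Assembly. -/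
theorem eq_top_of_decomp (M : ℕ) (H : Subgroup SL(2, ℤ)) (hT : ModularGroup.T ∈ H)
    (hΓ : CongruenceSubgroup.Gamma M ≤ H)
    (hdec : ∀ g : SL(2, ℤ), ∃ b ∈ CongruenceSubgroup.Gamma0 M, g * b⁻¹ ∈ H) : H = ⊤ := by
  refine eq_top_of_conj_T H fun g => ?_
  obtain ⟨b, hb, hs⟩ := hdec g
  have h1 := conj_T_mem M H hT hΓ b hb
  have h2 : g * ModularGroup.T * g⁻¹ =
      (g * b⁻¹) * (b * ModularGroup.T * b⁻¹) * (g * b⁻¹)⁻¹ := by group
  rw [h2]
  exact H.mul_mem (H.mul_mem hs h1) (H.inv_mem hs)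

end Fermat.Agent.S48.Igusa1.Deg
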