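import Fermat.Agent.S48.Igusa1.Deg.IntG

/-!
# S48 / IGUSA1 / DEGREE (L9) : `res1 (R1) = FFullC k M`
-/

set_option autoImplicit false
set_option linter.unusedSectionVars false

open ModularCurve Matrix Polynomial
open scoped MatrixGroups

noncomputable section

namespace Fermat.Agent.S48.Igusa1.Deg

open Fermat.Agent.GAL.Gauss Fermat.Agent.S48.Full

variable {K : Type} [Field K] [IsAlgClosed K] (ι : K →+* ℂ) (A : ValuationSubring K)
  (M : ℕ) [NeZero M]

theorem Range_exists_zeta (hM : ((M : ℕ) : IsLocalRing.ResidueField ↥A) ≠ 0) :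
    ∃ (ζ : Kˣ) (ζA : (↥A)ˣ), IsZetaA A M ζ ζA := by
  have hMK : NeZero (M : K) := ⟨fun h => hM (by
    have h1 : ((M : ℕ) : ↥A) = 0 := Subtype.ext (by push_cast; exact h)
    rw [← map_natCast (IsLocalRing.residue ↥A), h1, map_zero])⟩
  obtain ⟨ξ, hξ⟩ := HasEnoughRootsOfUnity.exists_primitiveRoot K M
  have hξ0 : ξ ≠ 0 := hξ.ne_zero (NeZero.ne M)
  have hζ : IsPrimitiveRoot (Units.mk0 ξ hξ0) M := IsPrimitiveRoot.coe_units_iff.1 hξ
  obtain ⟨ζA, h⟩ := exists_isZetaA A M hM _ hζ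
  exact ⟨_, ζA, h⟩

/-- **(L9a)** the reduction of a generator is a generator (`gensC_eq` over `K` and over `k` with
`ζ`, `zetaK A ζA`; `IsZetaA.gRes_hVec`, `gRes_jM`), and every generator over `k` is obtained. -/
theorem res1_mem_gensC (hM : ((M : ℕ) : IsLocalRing.ResidueField ↥A) ≠ 0)
    (x : ↥(R1 A M)) (hx : (x : FS K (gensC K M)) ∈ gensF M) :
    res1 A M hM x ∈ gensC (IsLocalRing.ResidueField ↥A) M := by
  obtain ⟨ζ, ζA, h⟩ := Range_exists_zeta A M hM
  have hx' : ((x : FS K (gensC K M)) : LaurentSeries K) ∈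
      {x | x = jM K M ∨ ∃ v : Fin 2 → ZMod M, v ≠ 0 ∧ x = hVec K M ζ v} :=
    (gensC_eq h.prim) ▸ hx
  rw [gensC_eq h.primk, res1_apply]
  rcases hx' with hj | ⟨v, hv, hxv⟩
  · left
    have h1 : (⟨((x : FS K (gensC K M)) : LaurentSeries K), R1_le_OF A M hM x.2⟩ : ↥(gRing A))
        = ⟨jM K M, jM_mem_gRing A M⟩ := Subtype.ext hj
    rw [h1, gRes_jM]
  · right
    refine ⟨v, hv, ?_⟩
    have h1 : (⟨((x : FS K (gensC K M)) : LaurentSeries K), R1_le_OF A M hM x.2⟩ : ↥(gRing A))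
        = ⟨hVec K M ζ v, h.hVec_mem_gRing hv⟩ := Subtype.ext hxv
    rw [h1, h.gRes_hVec hv]

include ι in
theorem exists_res1_eq_of_mem_gensC (hM : ((M : ℕ) : IsLocalRing.ResidueField ↥A) ≠ 0)
    (z : LaurentSeries (IsLocalRing.ResidueField ↥A))
    (hz : z ∈ gensC (IsLocalRing.ResidueField ↥A) M) :
    ∃ x : ↥(R1 A M), (x : FS K (gensC K M)) ∈ gensF M ∧ res1 A M hM x = z := by
  obtain ⟨ζ, ζA, h⟩ := Range_exists_zeta A M hM
  rw [gensC_eq h.primk] at hz
  rcases hz with hj | ⟨v, hv, hzv⟩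
  · have hg : jFF K M ∈ gensF M := Or.inl rfl
    refine ⟨⟨jFF K M, gensF_subset_R1 A M hg⟩, hg, ?_⟩
    rw [res1_apply, hj]
    exact gRes_jM A M
  · have hmem : hVec K M ζ v ∈ gensC K M := by
      rw [gensC_eq h.prim]
      exact Or.inr ⟨v, hv, rfl⟩
    have hg : (⟨hVec K M ζ v, IntermediateField.subset_adjoin K _ hmem⟩ : FS K (gensC K M))
        ∈ gensF M := hmem
    refine ⟨⟨_, gensF_subset_R1 A M hg⟩, hg, ?_⟩
    rw [res1_apply, hzv]
    exact h.gRes_hVec hv

/-- **(L9b)** PROOF. `Subring.closure_induction` on `x.2` (state the claim for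
`gRes A ⟨x, _⟩`, or use `RingHom.closure_preimage_le`/`Subring.closure_le` for the subring
`(FFullC k M).toSubring.comap (res1 ..)` of `R1`... any way): on `R00` use `ratJM_res`,
`mem_adjoin_jFF_iff` and `k(jM) ≤ FFullC k M`; on generators (L9a). -/
theorem res1_mem (hM : ((M : ℕ) : IsLocalRing.ResidueField ↥A) ≠ 0) (x : ↥(R1 A M)) :
    res1 A M hM x ∈ FFullC (IsLocalRing.ResidueField ↥A) M := by
  obtain ⟨x, hx⟩ := x
  induction hx using Subring.closure_induction with
  | mem x hx =>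
    rcases hx with hx | hx
    · have h1 := ratJM_res A M ⟨(x : LaurentSeries K), hx.1⟩ ((mem_adjoin_jFF_iff M K x).1 hx.2)
      have hle : IntermediateField.adjoin (IsLocalRing.ResidueField ↥A)
          {jM (IsLocalRing.ResidueField ↥A) M} ≤ FFullC (IsLocalRing.ResidueField ↥A) M := by
        rw [IntermediateField.adjoin_le_iff, Set.singleton_subset_iff]
        exact jM_mem_FFullC _ M
      exact hle h1
    · exact IntermediateField.subset_adjoin _ _ (res1_mem_gensC A M hM ⟨x, _⟩ hx)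
  | zero => exact (map_zero (res1 A M hM)).symm ▸ zero_mem _
  | one => exact (map_one (res1 A M hM)).symm ▸ one_mem _
  | add x y hx hy ihx ihy =>
    exact (map_add (res1 A M hM) ⟨x, hx⟩ ⟨y, hy⟩).symm ▸ add_mem ihx ihy
  | neg x hx ih => exact (map_neg (res1 A M hM) ⟨x, hx⟩).symm ▸ neg_mem ih
  | mul x y hx hy ihx ihy =>
    exact (map_mul (res1 A M hM) ⟨x, hx⟩ ⟨y, hy⟩).symm ▸ mul_mem ihx ihy

theorem Range_abs {k₀ L : Type*} [Field k₀] [Field L] [Algebra k₀ L] (j : L) (S : Set L)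
    (hS : ∀ s ∈ S, IsIntegral ↥(IntermediateField.adjoin k₀ {j}) s) (T : Subring L)
    (hj : ∀ c ∈ IntermediateField.adjoin k₀ {j}, c ∈ T) (hST : S ⊆ T) :
    ∀ z ∈ IntermediateField.adjoin k₀ S, z ∈ T := by
  classical
  intro z hz
  set E0 := IntermediateField.adjoin k₀ {j} with hE0
  have hsub : (IntermediateField.adjoin ↥E0 S).toSubalgebra = Algebra.adjoin ↥E0 S :=
    IntermediateField.adjoin_toSubalgebra_of_isAlgebraic fun s hs => (hS s hs).isAlgebraic
  have hle : IntermediateField.adjoin k₀ S ≤ (IntermediateField.adjoin ↥E0 S).restrictScalars k₀ := by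
    rw [IntermediateField.adjoin_le_iff]
    intro y hy
    exact IntermediateField.subset_adjoin (↥E0) _ hy
  have hz1 : z ∈ Algebra.adjoin ↥E0 S := by
    rw [← hsub]
    exact hle hz
  clear hz
  induction hz1 using Algebra.adjoin_induction with
  | mem s hs => exact hST hs
  | algebraMap c => exact hj _ c.2
  | add a b _ _ ha hb => exact add_mem ha hb
  | mul a b _ _ ha hb => exact mul_mem ha hb

include ι in
/-- **(L9c)** PROOF. Let `E₀ = k(jM)` and `S = gensC k M`.  All elements of `S` are integral over `E₀`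
((L8b) + (L9a)), so `Algebra.adjoin E₀ S` is a field
(`IntermediateField.adjoin_toSubalgebra_of_isAlgebraic` / `Subalgebra.isField_of_algebraic` /
`isField_of_isIntegral_of_isField'`), it contains `k` and `S`, hence contains `FFullC k M`.  And
`Algebra.adjoin E₀ S ⊆ range res1` by `Algebra.adjoin_induction`: `E₀ ⊆ range` by `ratJM_lift`
(+ `mem_adjoin_jFF_iff`, `R00_le_R1`; an element `c` of `K(jM) ∩ gRing` is the coercion of an element
of `F` since `K(jM) ≤ FFullC K M`), `S ⊆ range` by (L9a). -/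
theorem exists_res1_eq (hM : ((M : ℕ) : IsLocalRing.ResidueField ↥A) ≠ 0)
    (z : LaurentSeries (IsLocalRing.ResidueField ↥A))
    (hz : z ∈ FFullC (IsLocalRing.ResidueField ↥A) M) : ∃ x : ↥(R1 A M), res1 A M hM x = z := by
  classical
  refine Range_abs (jM (IsLocalRing.ResidueField ↥A) M) (gensC (IsLocalRing.ResidueField ↥A) M) ?_
    (res1 A M hM).range ?_ ?_ z hz
  · intro s hs
    obtain ⟨x, hx, rfl⟩ := exists_res1_eq_of_mem_gensC ι A M hM s hs
    exact isIntegral_res1_of_mem_gensF ι A M hM x hx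
  · intro c hc
    obtain ⟨d, hd, hres⟩ := ratJM_lift A M c hc
    have hleK : IntermediateField.adjoin K {jM K M} ≤ FS K (gensC K M) := by
      rw [IntermediateField.adjoin_simple_le_iff]
      exact jM_mem_FFullC K M
    have h00 : (⟨(d : LaurentSeries K), hleK hd⟩ : FS K (gensC K M)) ∈ R00 A M :=
      (mem_R00 A M).2 ⟨d.2, (mem_adjoin_jFF_iff M K _).2 hd⟩
    refine ⟨⟨_, R00_le_R1 A M h00⟩, ?_⟩
    rw [res1_apply]
    exact hres
  · intro s hs
    obtain ⟨x, -, hx⟩ := exists_res1_eq_of_mem_gensC ι A M hM s hs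
    exact ⟨x, hx⟩

include ι in
theorem mem_FFullC_iff (hM : ((M : ℕ) : IsLocalRing.ResidueField ↥A) ≠ 0)
    (z : LaurentSeries (IsLocalRing.ResidueField ↥A)) :
    z ∈ FFullC (IsLocalRing.ResidueField ↥A) M ↔ ∃ x : ↥(R1 A M), res1 A M hM x = z :=
  ⟨exists_res1_eq ι A M hM z, fun ⟨x, hx⟩ => hx ▸ res1_mem A M hM x⟩

include ι in
/-- `res1 (R1)` is a field. -/
theorem res1_field (hM : ((M : ℕ) : IsLocalRing.ResidueField ↥A) ≠ 0) (x : ↥(R1 A M))
    (hx : res1 A M hM x ≠ 0) : ∃ y, res1 A M hM x * res1 A M hM y = 1 := by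
  obtain ⟨y, hy⟩ := exists_res1_eq ι A M hM _ (inv_mem (res1_mem A M hM x))
  exact ⟨y, by rw [hy, mul_inv_cancel₀ hx]⟩

/-- constants lift to invariant elements. -/
theorem exists_res1_algebraMap (hM : ((M : ℕ) : IsLocalRing.ResidueField ↥A) ≠ 0)
    (c : IsLocalRing.ResidueField ↥A) :
    ∃ x : ↥(R1 A M), res1 A M hM x = algebraMap _ (LaurentSeries (IsLocalRing.ResidueField ↥A)) c ∧
      ∀ g, actR ι A M g x = x := by
  obtain ⟨a, rfl⟩ := IsLocalRing.residue_surjective c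
  have hC : HahnSeries.C (a : K) ∈ gRing A := (C_mem_gRing_iff A _).2 a.2
  have hcoe : ((algebraMap K (FS K (gensC K M)) (a : K) : FS K (gensC K M)) : LaurentSeries K)
      = HahnSeries.C (a : K) := algebraMap_eq_C (a : K)
  have h00 : algebraMap K (FS K (gensC K M)) (a : K) ∈ R00 A M := by
    refine (mem_R00 A M).2 ⟨?_, IntermediateField.algebraMap_mem _ _⟩
    rw [hcoe]
    exact hC
  refine ⟨⟨_, R00_le_R1 A M h00⟩, ?_, fun g => actR_eq_self_of_mem_R00 ι A M g _ h00⟩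
  rw [res1_apply, algebraMap_eq_C, ← gRes_C A a hC]
  congr 1
  exact Subtype.ext hcoe

end Fermat.Agent.S48.Igusa1.Deg
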