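import Fermat.Agent.S48.Igusa1.Deg.LevelM
import Fermat.Agent.S48.Igusa1.Deg.Range
import Fermat.Agent.S48.Igusa1.Deg.AbsRes
import Fermat.Agent.S48.Full.G0

/-!
# S48 / IGUSA1 / DEGREE (L11) : `Γ₀(M)`-invariant Gauss units stay Gauss units under `SL₂(ℤ)`
-/

set_option autoImplicit false
set_option linter.unusedSectionVars false

open ModularCurve Matrix Polynomial
open scoped MatrixGroups

noncomputable section

namespace Fermat.Agent.S48.Igusa1.Deg

open Fermat.Agent.GAL.Gauss Fermat.Agent.S48.Full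

variable {K : Type} [Field K] [IsAlgClosed K] (ι : K →+* ℂ) (A : ValuationSubring K)
  (M : ℕ) [NeZero M]

/-- **(L11a)** PROOF. By `Full.exists_qExpand_iff_fixed ι M y`, `(y : series) = qExpand K M y₀` with
`y₀ ∈ F₀(M)`; `y₀ ∈ gRing` (`mem_gRing_of_qExpand`), `gRes y₀ ≠ 0` (`gRes_qExpand`).  Take `p₀` from
`exists_poly_levelM`.  Each `qExpand K M (p₀.coeff i)` lies in `gRing` (`qExpand_mem_gRing`) and in
`K(jM)` (`mem_adjoin_jM_iff`), hence is the coercion of an element `c i` of `R00 ≤ R1`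
(`mem_adjoin_jFF_iff`; `K(jM) ≤ FFullC K M`).  `p := ∑ i ∈ range (p₀.natDegree + 1), C (c i) * X^i`
(or `Polynomial.ofFn`, or lift `p₀.map (qExpand K M)` along the injective ring hom `R1 → K((t))` with
`Polynomial.lifts`). -/
theorem exists_poly_of_fixed (hM : ((M : ℕ) : IsLocalRing.ResidueField ↥A) ≠ 0) (y : ↥(R1 A M))
    (hfix : ∀ b ∈ CongruenceSubgroup.Gamma0 M, actR ι A M b y = y) (hy : res1 A M hM y ≠ 0) :
    ∃ p : (↥(R1 A M))[X], (∀ g i, actR ι A M g (p.coeff i) = p.coeff i) ∧ p.coeff 0 = 1 ∧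
      p.eval y = 0 := by
  obtain ⟨y₀, hy₀, hyy⟩ := (exists_qExpand_iff_fixed ι M (y : FS K (gensC K M))).2
    (fun b hb => congrArg Subtype.val (hfix b hb))
  have hyg : qExpand K M y₀ ∈ gRing A := by
    rw [hyy]; exact R1_le_OF A M hM y.2
  have hy₀g : y₀ ∈ gRing A := mem_gRing_of_qExpand A M hM hy₀ hyg
  have hres : gRes A ⟨y₀, hy₀g⟩ ≠ 0 := by
    intro h
    apply hy
    have h1 := gRes_qExpand A M hy₀g
    rw [h, map_zero] at h1
    rw [res1_apply, ← h1]
    congr 1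
    exact Subtype.ext hyy.symm
  obtain ⟨p₀, hp1, hp2, hp3⟩ := exists_poly_levelM A M hM ⟨y₀, hy₀g⟩ hy₀ hres
  -- the injective ring hom `R1 → K((t))`
  let φ : ↥(R1 A M) →+* LaurentSeries K :=
    (algebraMap (FS K (gensC K M)) (LaurentSeries K)).comp (R1 A M).subtype
  have hφ : Function.Injective φ := fun a b hab => Subtype.ext (Subtype.ext hab)
  have hφc : ∀ a : ↥(R1 A M), φ a = ((a : FS K (gensC K M)) : LaurentSeries K) := fun _ => rfl
  have hle : IntermediateField.adjoin K {jM K M} ≤ FS K (gensC K M) :=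
    IntermediateField.adjoin_le_iff.2 (by
      rintro _ rfl
      exact jM_mem_FFullC K M)
  have hadj : ∀ i, qExpand K M (p₀.coeff i) ∈ IntermediateField.adjoin K {jM K M} := fun i =>
    (mem_adjoin_jM_iff M K _).2 ⟨_, (hp1 i).2, rfl⟩
  have hlift : p₀.map (qExpand K M) ∈ Polynomial.lifts φ := by
    rw [Polynomial.lifts_iff_coeff_lifts]
    intro i
    rw [Polynomial.coeff_map]
    have hx : (⟨qExpand K M (p₀.coeff i), hle (hadj i)⟩ : FS K (gensC K M)) ∈ R00 A M :=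
      ⟨qExpand_mem_gRing A M (hp1 i).1, (mem_adjoin_jFF_iff M K _).2 (hadj i)⟩
    exact ⟨⟨_, R00_le_R1 A M hx⟩, rfl⟩
  obtain ⟨p, hp⟩ := (Polynomial.mem_lifts _).1 hlift
  have hcoe : ∀ i, φ (p.coeff i) = qExpand K M (p₀.coeff i) := by
    intro i
    rw [← Polynomial.coeff_map, hp, Polynomial.coeff_map]
  refine ⟨p, ?_, ?_, ?_⟩
  · intro g i
    apply actR_eq_self_of_mem_R00
    refine ⟨?_, (mem_adjoin_jFF_iff M K _).2 ?_⟩
    · show ((p.coeff i : FS K (gensC K M)) : LaurentSeries K) ∈ gRing A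
      rw [← hφc, hcoe]
      exact qExpand_mem_gRing A M (hp1 i).1
    · rw [← hφc, hcoe]
      exact hadj i
  · apply hφ
    rw [hcoe, hp2, map_one, map_one]
  · apply hφ
    rw [← Polynomial.eval_map_apply, hp, hφc, ← hyy, Polynomial.eval_map_apply, map_zero]
    have : p₀.eval y₀ = 0 := hp3
    rw [this, map_zero]

/-- The hypothesis `hB` of `exists_mul_inv_mem_Stab`. -/
theorem res1_actR_ne_zero_of_fixed (hM : ((M : ℕ) : IsLocalRing.ResidueField ↥A) ≠ 0)
    (y : ↥(R1 A M)) (hfix : ∀ b ∈ CongruenceSubgroup.Gamma0 M, actR ι A M b y = y)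
    (hy : res1 A M hM y ≠ 0) (g : SL(2, ℤ)) : res1 A M hM (actR ι A M g y) ≠ 0 := by
  obtain ⟨p, h1, h2, h3⟩ := exists_poly_of_fixed ι A M hM y hfix hy
  exact ne_zero_of_poly (actR ι A M) (res1 A M hM) p h1 h2 y h3 g

end Fermat.Agent.S48.Igusa1.Deg
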