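import Fermat.Agent.S48.Igusa1.Deg.Defs

/-!
# S48 / IGUSA1 / DEGREE (L5) : the generators are `A`-integral; their reductions
-/

set_option autoImplicit false
set_option linter.unusedSectionVars false

open ModularCurve
open scoped MatrixGroups

noncomputable section

namespace Fermat.Agent.S48.Igusa1.Deg

open Fermat.Agent.GAL.Gauss Fermat.Agent.S48.Full

variable {K : Type} [Field K] (A : ValuationSubring K) (M : ℕ) [NeZero M]

/-- A lift of the root of unity `ζ` to `Aˣ` with all the properties we need. -/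
structure IsZetaA (ζ : Kˣ) (ζA : (↥A)ˣ) : Prop where
  coe : ((ζA : ↥A) : K) = (ζ : K)
  prim : IsPrimitiveRoot ζ M
  primA : IsPrimitiveRoot ζA M
  primk : IsPrimitiveRoot (Units.map (IsLocalRing.residue ↥A : ↥A →* IsLocalRing.ResidueField ↥A) ζA) M
  unit : ∀ v : Fin 2 → ZMod M, v ≠ 0 → v 0 ≠ 0 ∨ IsUnit (1 - ((ζA ^ (v 1).val : (↥A)ˣ) : ↥A))

/-- the reduction of `ζA`. -/
abbrev zetaK (ζA : (↥A)ˣ) : (IsLocalRing.ResidueField ↥A)ˣ :=
  Units.map (IsLocalRing.residue ↥A : ↥A →* IsLocalRing.ResidueField ↥A) ζA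

/-- **(L5a)** PROOF. `ζ ∈ A` and `ζ⁻¹ ∈ A`: `ζ ^ M = 1`, valuation rings are integrally closed (or: if
`ζ ∉ A` then `ζ⁻¹` is a non unit of `A`, so is `(ζ⁻¹)^M = 1`, absurd).  For `0 < i < M`:
`∏_{0<i<M} (1 - ζ^i) = M` (evaluate `(X^M - 1)/(X - 1) = ∏_{0<i<M} (X - ζ^i)` at `1`;
`IsPrimitiveRoot`/`Polynomial.X_pow_sub_one_eq_prod`, `Polynomial.geom_sum`; look for an existing version:
`grep -rn "IsPrimitiveRoot" Fermat/Agent/GAL/Igusa Fermat/Agent/S28 Fermat/Agent/CFT`) and `M` is a unit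
of `A` by `hM`; so every `1 - ζA^i` is a unit of `A`, i.e. the reduction of `ζA^i` is `≠ 1`: `primk`
(`IsPrimitiveRoot.mk_of_lt`) and `unit` (`v ≠ 0`, `v 0 = 0` give `0 < (v 1).val < M`). -/
theorem exists_isZetaA (hM : ((M : ℕ) : IsLocalRing.ResidueField ↥A) ≠ 0) (ζ : Kˣ)
    (hζ : IsPrimitiveRoot ζ M) : ∃ ζA : (↥A)ˣ, IsZetaA A M ζ ζA := by
  classical
  have hM0 : 0 < M := Nat.pos_of_ne_zero (NeZero.ne M)
  have hmem : ∀ x : K, x ^ M = 1 → x ∈ A := by
    intro x hx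
    rcases A.mem_or_inv_mem x with h | h
    · exact h
    · have h1 : x = x⁻¹ ^ (M - 1) := by
        have hx0 : x ≠ 0 := by
          rintro rfl
          rw [zero_pow (NeZero.ne M)] at hx
          exact zero_ne_one hx
        have hM1 : M = (M - 1) + 1 := (Nat.succ_pred_eq_of_pos hM0).symm
        rw [hM1, pow_succ] at hx
        rw [inv_pow]
        field_simp
        rw [mul_comm, hx]
      rw [h1]
      exact pow_mem h _
  have hζK : (ζ : K) ^ M = 1 := by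
    rw [← Units.val_pow_eq_pow_val, hζ.pow_eq_one, Units.val_one]
  have hζA1 : (⟨(ζ : K), hmem _ hζK⟩ : ↥A) ^ M = 1 := Subtype.ext hζK
  set ζA : (↥A)ˣ := Units.ofPowEqOne _ M hζA1 (NeZero.ne M) with hζA
  have hcoe : ((ζA : ↥A) : K) = (ζ : K) := rfl
  have hmap : Units.map (A.subtype : ↥A →* K) ζA = ζ := Units.ext hcoe
  have hprimA : IsPrimitiveRoot ζA M := by
    refine IsPrimitiveRoot.of_map_of_injective (f := Units.map (A.subtype : ↥A →* K)) ?_
      (Units.map_injective Subtype.val_injective)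
    rw [hmap]
    exact hζ
  have hprimA' : IsPrimitiveRoot (ζA : ↥A) M := IsPrimitiveRoot.coe_units_iff.2 hprimA
  -- the reduction is injective on the roots of unity
  have hsep : (Polynomial.X ^ M - Polynomial.C (1 : IsLocalRing.ResidueField ↥A)).Separable :=
    Polynomial.separable_X_pow_sub_C 1 hM one_ne_zero
  have hprod := congrArg (Polynomial.map (IsLocalRing.residue ↥A))
    (Polynomial.X_pow_sub_one_eq_prod hM0 hprimA')
  rw [Polynomial.map_prod] at hprod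
  simp only [Polynomial.map_sub, Polynomial.map_pow, Polynomial.map_X, Polynomial.map_one,
    Polynomial.map_C] at hprod
  rw [Polynomial.C_1, hprod, Polynomial.separable_prod_X_sub_C_iff'] at hsep
  have hne : ∀ i : ℕ, 0 < i → i < M → IsLocalRing.residue ↥A ((ζA : ↥A) ^ i) ≠ 1 := by
    intro i hi0 hiM h
    have h1 := hsep ((ζA : ↥A) ^ i)
      (by rw [Polynomial.mem_nthRootsFinset hM0, ← pow_mul, mul_comm, pow_mul, hprimA'.pow_eq_one,
        one_pow])
      1 (by rw [Polynomial.mem_nthRootsFinset hM0, one_pow]) (by rw [h, map_one])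
    exact hprimA'.pow_ne_one_of_pos_of_lt hi0.ne' hiM h1
  refine ⟨ζA, hcoe, hζ, hprimA, ?_, ?_⟩
  · refine IsPrimitiveRoot.mk_of_lt _ hM0 (by rw [← map_pow, hprimA.pow_eq_one, map_one]) ?_
    intro l hl0 hlM h
    apply hne l hl0 hlM
    have := congrArg Units.val h
    rw [← map_pow, Units.coe_map, Units.val_one, Units.val_pow_eq_pow_val] at this
    exact this
  · intro v hv
    by_cases h0 : v 0 = 0
    · refine Or.inr ?_
      have h1 : v 1 ≠ 0 := by
        intro h1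
        apply hv
        funext i
        fin_cases i
        · exact h0
        · exact h1
      have h2 : 0 < (v 1).val := by
        rw [Nat.pos_iff_ne_zero]
        intro h
        exact h1 ((ZMod.val_eq_zero _).1 h)
      rw [← IsLocalRing.residue_ne_zero_iff_isUnit, map_sub, map_one, sub_ne_zero,
        Units.val_pow_eq_pow_val]
      exact (hne _ h2 (ZMod.val_lt _)).symm
    · exact Or.inl h0

variable {A M}

/-- **(L5b)** `coeffMap_hVec`. -/
theorem IsZetaA.iA_hVec {ζ : Kˣ} {ζA : (↥A)ˣ} (h : IsZetaA A M ζ ζA) {v : Fin 2 → ZMod M}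
    (hv : v ≠ 0) : iA A (hVec ↥A M ζA v) = hVec K M ζ v := by
  have h1 : Units.map (A.subtype : ↥A →* K) ζA = ζ := Units.ext h.coe
  rw [iA, coeffMap_hVec A.subtype M ζA v (h.unit v hv), h1]

/-- **(L5b)** `coeffMap_hVec`. -/
theorem IsZetaA.pA_hVec {ζ : Kˣ} {ζA : (↥A)ˣ} (h : IsZetaA A M ζ ζA) {v : Fin 2 → ZMod M}
    (hv : v ≠ 0) : pA A (hVec ↥A M ζA v) = hVec (IsLocalRing.ResidueField ↥A) M (zetaK A ζA) v := by
  rw [pA, coeffMap_hVec (IsLocalRing.residue ↥A) M ζA v (h.unit v hv)]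

variable (A M)

theorem iA_jM : iA A (jM ↥A M) = jM K M := by
  rw [iA, coeffMap_jM]

theorem pA_jM : pA A (jM ↥A M) = jM (IsLocalRing.ResidueField ↥A) M := by
  rw [pA, coeffMap_jM]

theorem jM_mem_gRing : jM K M ∈ gRing A := by
  rw [← iA_jM]; exact iA_mem_gRing A _

theorem gRes_jM : gRes A ⟨jM K M, jM_mem_gRing A M⟩ = jM (IsLocalRing.ResidueField ↥A) M := by
  rw [gRes_of_eq_iA A _ (jM ↥A M) (iA_jM A M).symm, pA_jM]

variable {A M}

theorem IsZetaA.hVec_mem_gRing {ζ : Kˣ} {ζA : (↥A)ˣ} (h : IsZetaA A M ζ ζA) {v : Fin 2 → ZMod M}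
    (hv : v ≠ 0) : hVec K M ζ v ∈ gRing A := by
  rw [← h.iA_hVec hv]; exact iA_mem_gRing A _

theorem IsZetaA.gRes_hVec {ζ : Kˣ} {ζA : (↥A)ˣ} (h : IsZetaA A M ζ ζA) {v : Fin 2 → ZMod M}
    (hv : v ≠ 0) : gRes A ⟨hVec K M ζ v, h.hVec_mem_gRing hv⟩ =
      hVec (IsLocalRing.ResidueField ↥A) M (zetaK A ζA) v := by
  rw [gRes_of_eq_iA A _ (hVec ↥A M ζA v) (h.iA_hVec hv).symm, h.pA_hVec hv]

theorem Int_twist_injective {Λ : Type*} [CommRing Λ] (c : Λˣ) :
    Function.Injective (S28.twist c) := by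
  intro x y hxy
  ext n
  have h1 := congrArg (fun s => HahnSeries.coeff s n) hxy
  simp only [S28.twist_coeff] at h1
  exact (Units.mul_right_inj _).mp h1

theorem Int_pA_twist (ζA : (↥A)ˣ) (x : LaurentSeries ↥A) :
    pA A (S28.twist ζA x) = S28.twist (zetaK A ζA) (pA A x) := by
  ext n
  rw [pA_coeff, S28.twist_coeff, S28.twist_coeff, pA_coeff, map_mul]
  congr 1
  rw [← map_zpow]
  rfl

theorem IsZetaA.Int_iA_twist {ζ : Kˣ} {ζA : (↥A)ˣ} (h : IsZetaA A M ζ ζA) (x : LaurentSeries ↥A) :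
    iA A (S28.twist ζA x) = S28.twist ζ (iA A x) := by
  have h1 : Units.map (A.subtype : ↥A →* K) ζA = ζ := Units.ext h.coe
  ext n
  rw [iA_coeff, S28.twist_coeff, S28.twist_coeff, iA_coeff, ← h1, ← map_zpow]
  rfl

/-- **(L5c)** `S28.twist` commutes with the reduction.

PROOF. `x ∈ gRing`: `iA g * x = iA z`; apply `S28.twist ζ`: `twist ζ (iA g) = iA (twist ζA g)`
(coefficientwise, `S28.twist_coeff`), `pA (twist ζA g) = twist (zetaK ζA) (pA g) ≠ 0` (twist is
injective: coefficients are multiplied by units). -/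
theorem IsZetaA.twist_mem_gRing {ζ : Kˣ} {ζA : (↥A)ˣ} (h : IsZetaA A M ζ ζA) {x : LaurentSeries K}
    (hx : x ∈ gRing A) : S28.twist ζ x ∈ gRing A := by
  obtain ⟨z, g, hg, e⟩ := hx
  refine ⟨S28.twist ζA z, S28.twist ζA g, ?_, ?_⟩
  · rw [Int_pA_twist]
    exact (map_ne_zero_iff _ (Int_twist_injective _)).mpr hg
  · rw [h.Int_iA_twist, h.Int_iA_twist, ← e, map_mul]

theorem IsZetaA.gRes_twist {ζ : Kˣ} {ζA : (↥A)ˣ} (h : IsZetaA A M ζ ζA) {x : LaurentSeries K}
    (hx : x ∈ gRing A) : gRes A ⟨S28.twist ζ x, h.twist_mem_gRing hx⟩ =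
      S28.twist (zetaK A ζA) (gRes A ⟨x, hx⟩) := by
  obtain ⟨z, g, hg, e⟩ := (mem_gRing_iff A).mp hx
  have hg' : pA A (S28.twist ζA g) ≠ 0 := by
    rw [Int_pA_twist]
    exact (map_ne_zero_iff _ (Int_twist_injective _)).mpr hg
  have e0 : iA A (S28.twist ζA g) * S28.twist ζ x = iA A (S28.twist ζA z) := by
    rw [h.Int_iA_twist, h.Int_iA_twist, ← e, map_mul]
  have e1 := gRes_eq A ⟨S28.twist ζ x, h.twist_mem_gRing hx⟩ hg' e0
  have e2 := gRes_eq A ⟨x, hx⟩ hg e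
  rw [e1, e2, Int_pA_twist, Int_pA_twist]
  exact (map_div₀ (S28.twist (zetaK A ζA)) _ _).symm

end Fermat.Agent.S48.Igusa1.Deg
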