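import Fermat.Agent.S48.Igusa1.Deg.Ring

/-!
# S48 / IGUSA1 / DEGREE (L8) : `R1` is integral over `R00`
-/

set_option autoImplicit false
set_option linter.unusedSectionVars false

open ModularCurve Matrix Polynomial
open scoped MatrixGroups

noncomputable section

namespace Fermat.Agent.S48.Igusa1.Deg

open Fermat.Agent.GAL.Gauss Fermat.Agent.S48.Full

variable {K : Type} [Field K] [IsAlgClosed K] (ι : K →+* ℂ) (A : ValuationSubring K)
  (M : ℕ) [NeZero M]

include ι in
/-- **(L8a)** Every generator is a root of a monic polynomial with coefficients in `R00`.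

PROOF. `x = jFF`: `X - C jFF`.  `x = hVec ζ v₀`: `P := ∏_{v ≠ 0} (X - C ⟨h_v, _⟩) ∈ (R1 A M)[X]`
(finite product over `{v : Fin 2 → ZMod M // v ≠ 0}`, a `Fintype`).  `P.map (actR g) = P`: by
`actFull_hVec` the factors are permuted by the bijection `v ↦ v ᵥ* redSL M g⁻¹` of the non zero
vectors (inverse: `g`; `WT1.redSL_mul`, `WT1.redSL_one`; `Fintype.prod_equiv` / `Finset.prod_bij`).  So every
coefficient is fixed by `actR g` for all `g`: `mem_R00_of_fixed`. -/
theorem exists_monic_of_mem_gensF (hM : ((M : ℕ) : IsLocalRing.ResidueField ↥A) ≠ 0)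
    (x : ↥(R1 A M)) (hx : (x : FS K (gensC K M)) ∈ gensF M) :
    ∃ P : (↥(R1 A M))[X], P.Monic ∧ (∀ i, ((P.coeff i : ↥(R1 A M)) : FS K (gensC K M)) ∈ R00 A M) ∧
      P.eval x = 0 := by
  classical
  have hfin : {y : ↥(R1 A M) | (y : FS K (gensC K M)) ∈ gensF M}.Finite := by
    refine Set.Finite.of_finite_image
      (f := fun y : ↥(R1 A M) => ((y : FS K (gensC K M)) : LaurentSeries K))
      ((finite_gensC (M := M) K).subset ?_) ?_
    · rintro _ ⟨y, hy, rfl⟩
      exact hy
    · intro y _ y' _ h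
      exact Subtype.ext (Subtype.ext h)
  set S : Finset ↥(R1 A M) := hfin.toFinset with hS
  have hmemS : ∀ y : ↥(R1 A M), y ∈ S ↔ (y : FS K (gensC K M)) ∈ gensF M := by
    intro y
    rw [hS, Set.Finite.mem_toFinset]
    rfl
  have himg : ∀ g : SL(2, ℤ), S.image (actR ι A M g) = S := by
    intro g
    apply Finset.eq_of_subset_of_card_le
    · intro y hy
      rw [Finset.mem_image] at hy
      obtain ⟨y', hy', rfl⟩ := hy
      rw [hmemS] at hy' ⊢
      exact actFull_mem_gensF ι M g hy'
    · rw [Finset.card_image_of_injective _ (actR ι A M g).injective]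
  refine ⟨∏ s ∈ S, (X - C s), monic_prod_of_monic _ _ (fun s _ => monic_X_sub_C s), ?_, ?_⟩
  · intro i
    apply mem_R00_of_fixed ι A M hM
    intro g
    have h1 : (∏ s ∈ S, (X - C s)).map ((actR ι A M g : ↥(R1 A M) ≃+* ↥(R1 A M)) : ↥(R1 A M) →+* ↥(R1 A M))
        = ∏ s ∈ S, (X - C s) := by
      rw [Polynomial.map_prod]
      conv_rhs => rw [← himg g]
      rw [Finset.prod_image (fun a _ b _ h => (actR ι A M g).injective h)]
      refine Finset.prod_congr rfl fun s _ => ?_
      rw [Polynomial.map_sub, Polynomial.map_X, Polynomial.map_C]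
      rfl
    have h2 := congrArg (fun Q => Q.coeff i) h1
    simp only [coeff_map] at h2
    exact h2
  · rw [eval_prod]
    exact Finset.prod_eq_zero ((hmemS x).2 hx) (by rw [eval_sub, eval_X, eval_C, sub_self])

include ι in
/-- **(L8b)** The reduction of a generator is integral over `k(j(t^M))`.

PROOF. Map the polynomial of (L8a) by `res1`; its coefficients lie in `k(jM)` by `ratJM_res` +
`mem_adjoin_jFF_iff`; lift it to a polynomial over the subfield (`Polynomial.toSubring`, or
`Polynomial.lifts`/`Polynomial.lifts_and_degree_eq_and_monic`). -/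
theorem isIntegral_res1_of_mem_gensF (hM : ((M : ℕ) : IsLocalRing.ResidueField ↥A) ≠ 0)
    (x : ↥(R1 A M)) (hx : (x : FS K (gensC K M)) ∈ gensF M) :
    IsIntegral ↥(IntermediateField.adjoin (IsLocalRing.ResidueField ↥A)
      {jM (IsLocalRing.ResidueField ↥A) M}) (res1 A M hM x) := by
  classical
  obtain ⟨P, hP, hcoef, hev⟩ := exists_monic_of_mem_gensF ι A M hM x hx
  have hlift : P.map (res1 A M hM) ∈ Polynomial.lifts
      (algebraMap ↥(IntermediateField.adjoin (IsLocalRing.ResidueField ↥A)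
      {jM (IsLocalRing.ResidueField ↥A) M}) (LaurentSeries (IsLocalRing.ResidueField ↥A))) := by
    rw [Polynomial.lifts_iff_coeff_lifts]
    intro i
    rw [coeff_map, res1_apply]
    exact ⟨⟨_, ratJM_res A M _ ((mem_adjoin_jFF_iff M K _).1 (hcoef i).2)⟩, rfl⟩
  obtain ⟨q, hq, -, hqm⟩ := Polynomial.lifts_and_degree_eq_and_monic hlift (hP.map _)
  refine ⟨q, hqm, ?_⟩
  rw [eval₂_eq_eval_map, hq, eval_map, eval₂_at_apply, hev, map_zero]

end Fermat.Agent.S48.Igusa1.Deg
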