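import Fermat.Agent.S48.Igusa1.Deg.Defs

/-!
# S48 / IGUSA1 / DEGREE (L10) : Gauss units of the level `M` field `F₀(M)` are "integral units"
-/

set_option autoImplicit false
set_option linter.unusedSectionVars false

open ModularCurve Matrix Polynomial
open scoped MatrixGroups

noncomputable section

namespace Fermat.Agent.S48.Igusa1.Deg

open Fermat.Agent.GAL.Gauss Fermat.Agent.S48.Full

variable {K : Type} [Field K] (A : ValuationSubring K) (M : ℕ) [NeZero M]

/-- **(L10)** A Gauss unit `y` of the `Γ₀(M)`-field is a root of a polynomial with constant term `1` and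
coefficients in the Gauss ring of `K(j)`.

PROOF. `u := y⁻¹ ∈ gRing A` (`inv_mem_gRing_of_gRes_ne_zero`) and `u ∈ F₀(M)`.  Take a Gauss basis
`z₁ … z_n` (`exists_gaussBasis A M hM`, `n > 0`).  For each `i`, `u * iA (z i) ∈ gRing ∩ F₀(M)`, so by
`GaussBasis.span_int` `u * iA (z i) = ∑ j, C i j * iA (z j)` with `C i j ∈ gRing ∩ K(j)`.  The matrix
`u • 1 - C` over the field `K((q))` kills the vector `(iA (z j))_j ≠ 0` (it is `K(j)`-independent and
`n > 0`; or `hz.indep`), so `det (u • 1 - C) = 0` (`Matrix.exists_mulVec_eq_zero_iff`), i.e.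
`C.charpoly.eval u = 0` (`Matrix.eval_charpoly`/`Matrix.charpoly`, `Matrix.eval_det`).  `Q := C.charpoly` is monic of
degree `n` with coefficients in the subring `gRing ∩ K(j)` (it is the image of the charpoly of the
matrix over that subring: `Matrix.charpoly_map`).  `p := Q.reverse`: `p.coeff 0 = Q.leadingCoeff = 1`
(`Polynomial.coeff_zero_reverse`), `p.eval y = 0` (`Polynomial.eval₂_reverse_eq_zero_iff` /
`Polynomial.reverse_mul_of_domain`..., or by hand: `y^n * Q(y⁻¹)`), coefficients of `p` are coefficients of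
`Q` (`Polynomial.coeff_reverse`, `Polynomial.revAt`).
ALTERNATIVE: `IsIntegral.of_mem_of_fg` for the subalgebra `gRing ∩ F₀(M)` over `gRing ∩ K(j)`. -/
theorem exists_poly_levelM (hM : ((M : ℕ) : IsLocalRing.ResidueField ↥A) ≠ 0)
    (y : ↥(gRing A)) (hy : (y : LaurentSeries K) ∈ modularFunctionFieldFullC K M)
    (hres : gRes A y ≠ 0) :
    ∃ p : (LaurentSeries K)[X],
      (∀ i, p.coeff i ∈ gRing A ∧ p.coeff i ∈ IntermediateField.adjoin K {jqModC K}) ∧
      p.coeff 0 = 1 ∧ p.eval (y : LaurentSeries K) = 0 := by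
  classical
  obtain ⟨n, z, hn0, hz, -, -⟩ := exists_gaussBasis A M hM
  have hu : (y : LaurentSeries K)⁻¹ ∈ gRing A := inv_mem_gRing_of_gRes_ne_zero A y hres
  have hy0 : (y : LaurentSeries K) ≠ 0 := by
    intro h
    apply hres
    have : y = 0 := Subtype.ext h
    rw [this, map_zero]
  set u : LaurentSeries K := (y : LaurentSeries K)⁻¹ with hudef
  have hu0 : u ≠ 0 := inv_ne_zero hy0
  have huF : u ∈ modularFunctionFieldFullC K M := inv_mem hy
  let R0 : Subring (LaurentSeries K) :=
    gRing A ⊓ (IntermediateField.adjoin K {jqModC K}).toSubring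
  have hex : ∀ i : Fin n, ∃ c : Fin n → ↥R0,
      u * iA A (z i) = ∑ j, (c j : LaurentSeries K) * iA A (z j) := by
    intro i
    obtain ⟨c, hc, hsum⟩ := hz.span_int ⟨u * iA A (z i), mul_mem hu (iA_mem_gRing A _)⟩
      (mul_mem huF (hz.mem i))
    exact ⟨fun j => ⟨(c j : LaurentSeries K), (c j).2, hc j⟩, hsum⟩
  choose C hC using hex
  let CM : Matrix (Fin n) (Fin n) ↥R0 := Matrix.of C
  have hdet : (Matrix.scalar (Fin n) u - CM.map R0.subtype).det = 0 := by
    rw [← Matrix.exists_mulVec_eq_zero_iff]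
    refine ⟨fun j => iA A (z j), ?_, ?_⟩
    · intro h
      have h1 := hz.indep (fun _ => 1) (fun _ => one_mem _) (by
        refine Finset.sum_eq_zero fun i _ => ?_
        rw [one_mul]
        exact congrFun h i)
      have h2 := congrFun h1 ⟨0, hn0⟩
      exact one_ne_zero h2
    · funext i
      rw [Matrix.sub_mulVec, Pi.sub_apply, Pi.zero_apply, sub_eq_zero]
      have e1 : (Matrix.scalar (Fin n) u *ᵥ fun j => iA A (z j)) i = u * iA A (z i) := by
        simp [Matrix.scalar_apply, Matrix.mulVec_diagonal]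
      rw [e1, hC i]
      rfl
  have hQ : eval₂ R0.subtype u CM.charpoly = 0 := by
    rw [eval₂_eq_eval_map, ← Matrix.charpoly_map, Matrix.eval_charpoly]
    exact hdet
  refine ⟨(CM.charpoly.reverse).map R0.subtype, ?_, ?_, ?_⟩
  · intro i
    rw [coeff_map]
    exact (CM.charpoly.reverse.coeff i).2
  · rw [coeff_map, coeff_zero_reverse, (Matrix.charpoly_monic CM).leadingCoeff, map_one]
  · let _ : Invertible u := invertibleOfNonzero hu0
    have h1 := (eval₂_reverse_eq_zero_iff R0.subtype u CM.charpoly).2 hQ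
    rw [invOf_eq_inv, hudef, inv_inv] at h1
    rw [eval_map]
    exact h1

end Fermat.Agent.S48.Igusa1.Deg
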