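import Fermat.Agent.S48.Igusa1.Deg.Range

/-!
# S48 / IGUSA1 / DEGREE (L14) : `[FFullC k M : k(j)] ≤ [FFullC K M : K(j)]`
-/

set_option autoImplicit false
set_option linter.unusedSectionVars false
set_option synthInstance.maxHeartbeats 400000

open ModularCurve Matrix Polynomial
open scoped MatrixGroups

noncomputable section

namespace Fermat.Agent.S48.Igusa1.Deg

open Fermat.Agent.GAL.Gauss Fermat.Agent.S48.Full

variable {K : Type} [Field K] [IsAlgClosed K] (ι : K →+* ℂ) (A : ValuationSubring K)
  (M : ℕ) [NeZero M]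

include ι in
/-- **(L14a)** PROOF. Let `w : Fin r → FFullC k M` be linearly independent over `k(jFF)`.  Lift:
`w i = res1 (x i)` (`exists_res1_eq`).  `Gauss.indep_of_res (gRing A) (gRes A) K(jM).toSubfield
(ratJM_val A M) k(jM).toSubfield (ratJM_res A M) r (fun i => ⟨x i, _⟩)` shows that the `x i` are
independent over `K(jM)` in `K((t))`, hence over `K(jFF)` in `F` (`mem_adjoin_jFF_iff`;
`Fintype.linearIndependent_iff`), so `r ≤ finrank K(jFF) F = Nat.card (SL₂(ℤ) ⧸ ± Γ(M))`
(`(genSet_full ι M).finrank_jF`, `LinearIndependent.fintype_card_le_finrank`,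
`(genSet_full ι M).finiteDimensional_jF`; `(genSet_full ι M).jF = jFF K M` is `rfl`). -/
theorem card_le_of_linearIndependent (hM : ((M : ℕ) : IsLocalRing.ResidueField ↥A) ≠ 0) (r : ℕ)
    (w : Fin r → FS (IsLocalRing.ResidueField ↥A) (gensC (IsLocalRing.ResidueField ↥A) M))
    (hw : LinearIndependent ↥(IntermediateField.adjoin (IsLocalRing.ResidueField ↥A)
      {jFF (IsLocalRing.ResidueField ↥A) M}) w) :
    r ≤ Nat.card (SL(2, ℤ) ⧸ GammaPM M) := by
  classical
  choose x hx using fun i => exists_res1_eq ι A M hM (w i : LaurentSeries _) (w i).2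
  let zO : Fin r → ↥(gRing A) := fun i =>
    ⟨(((x i : ↥(R1 A M)) : FS K (gensC K M)) : LaurentSeries K), R1_le_OF A M hM (x i).2⟩
  have hres : ∀ i, gRes A (zO i) = (w i : LaurentSeries _) := fun i => hx i
  have hind : ∀ c : Fin r → LaurentSeries (IsLocalRing.ResidueField ↥A),
      (∀ i, c i ∈ (IntermediateField.adjoin (IsLocalRing.ResidueField ↥A)
        {jM (IsLocalRing.ResidueField ↥A) M}).toSubfield) →
        ∑ i, c i * gRes A (zO i) = 0 → c = 0 := by
    intro c hc hrel
    rw [Fintype.linearIndependent_iff] at hw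
    have hcF : ∀ i, c i ∈ FS (IsLocalRing.ResidueField ↥A) (gensC (IsLocalRing.ResidueField ↥A) M) := by
      intro i
      have hle : IntermediateField.adjoin (IsLocalRing.ResidueField ↥A)
          {jM (IsLocalRing.ResidueField ↥A) M} ≤
          FS (IsLocalRing.ResidueField ↥A) (gensC (IsLocalRing.ResidueField ↥A) M) := by
        rw [IntermediateField.adjoin_simple_le_iff]
        exact jM_mem_FFullC _ M
      exact hle (hc i)
    have hcE : ∀ i, (⟨c i, hcF i⟩ : FS (IsLocalRing.ResidueField ↥A)
        (gensC (IsLocalRing.ResidueField ↥A) M)) ∈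
        IntermediateField.adjoin (IsLocalRing.ResidueField ↥A)
          {jFF (IsLocalRing.ResidueField ↥A) M} := fun i =>
      (mem_adjoin_jFF_iff M _ _).2 (hc i)
    have := hw (fun i => ⟨⟨c i, hcF i⟩, hcE i⟩) (by
      apply Subtype.ext
      simp only [Algebra.smul_def]
      rw [IntermediateField.coe_sum, IntermediateField.coe_zero, ← hrel]
      refine Finset.sum_congr rfl fun i _ => ?_
      rw [hres]
      rfl)
    funext i
    exact congrArg Subtype.val (congrArg Subtype.val (this i))
  have hindK := indep_of_res (gRing A) (gRes A)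
      (IntermediateField.adjoin K {jM K M}).toSubfield (fun c hc => ratJM_val A M c hc)
      (IntermediateField.adjoin (IsLocalRing.ResidueField ↥A)
        {jM (IsLocalRing.ResidueField ↥A) M}).toSubfield (fun c hc => ratJM_res A M c hc)
      r zO hind
  have hli : LinearIndependent ↥(IntermediateField.adjoin K {(genSet_full ι M).jF})
      (fun i => ((x i : ↥(R1 A M)) : FS K (gensC K M))) := by
    rw [Fintype.linearIndependent_iff]
    intro g hg i
    have h1 := hindK (fun i => (((g i : ↥(IntermediateField.adjoin K {(genSet_full ι M).jF})) :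
      FS K (gensC K M)) : LaurentSeries K)) (fun i => (mem_adjoin_jFF_iff M K _).1 (g i).2) (by
        have := congrArg (fun y : FS K (gensC K M) => (y : LaurentSeries K)) hg
        simpa [Algebra.smul_def, IntermediateField.coe_sum] using this)
    exact Subtype.ext (Subtype.ext (congrFun h1 i))
  have := (genSet_full ι M).finiteDimensional_jF
  have h2 := hli.fintype_card_le_finrank
  rw [Fintype.card_fin, (genSet_full ι M).finrank_jF] at h2
  exact h2

theorem Upper_abs {E V : Type*} [Field E] [AddCommGroup V] [Module E V] (n : ℕ)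
    (H : ∀ (r : ℕ) (w : Fin r → V), LinearIndependent E w → r ≤ n) :
    Module.Finite E V ∧ Module.finrank E V ≤ n := by
  classical
  have h1 : Module.rank E V ≤ (n : ℕ) := by
    apply rank_le
    intro s hs
    exact H s.card (fun i => (((Finset.equivFin s).symm i : s) : V))
      (hs.comp _ (Finset.equivFin s).symm.injective)
  have h2 : Module.Finite E V := by
    rw [← Module.rank_lt_aleph0_iff]
    exact lt_of_le_of_lt h1 Cardinal.natCast_lt_aleph0
  exact ⟨h2, H _ (Module.finBasis E V) (Module.finBasis E V).linearIndependent⟩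

include ι in
/-- **(L14b)** from (L14a): `Module.rank_le` (bound on all finite independent families), then
`Module.finite_of_rank_lt_aleph0`-type lemma (`Module.rank_lt_aleph0_iff`), `Module.finrank`. -/
theorem finiteDimensional_k (hM : ((M : ℕ) : IsLocalRing.ResidueField ↥A) ≠ 0) :
    FiniteDimensional ↥(IntermediateField.adjoin (IsLocalRing.ResidueField ↥A)
      {jFF (IsLocalRing.ResidueField ↥A) M})
      (FS (IsLocalRing.ResidueField ↥A) (gensC (IsLocalRing.ResidueField ↥A) M)) := by
  exact (Upper_abs _ (card_le_of_linearIndependent ι A M hM)).1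

include ι in
theorem finrank_k_le (hM : ((M : ℕ) : IsLocalRing.ResidueField ↥A) ≠ 0) :
    Module.finrank ↥(IntermediateField.adjoin (IsLocalRing.ResidueField ↥A)
      {jFF (IsLocalRing.ResidueField ↥A) M})
      (FS (IsLocalRing.ResidueField ↥A) (gensC (IsLocalRing.ResidueField ↥A) M)) ≤
      Nat.card (SL(2, ℤ) ⧸ GammaPM M) := by
  exact (Upper_abs _ (card_le_of_linearIndependent ι A M hM)).2

end Fermat.Agent.S48.Igusa1.Deg
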