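import Fermat.Agent.S48.Igusa1.Deg.ActK
import Fermat.Agent.S48.Igusa1.Deg.Upper
import Fermat.Agent.S48.Igusa1.Deg.AbsGal

/-!
# S48 / IGUSA1 / DEGREE : main results

`[FFullC k M : k(j(t^M))] = [SL₂(ℤ) : ± Γ(M)]`, and the extension is Galois.
-/

set_option autoImplicit false
set_option linter.unusedSectionVars false
set_option synthInstance.maxHeartbeats 400000

open ModularCurve Matrix Polynomial
open scoped MatrixGroups

noncomputable section

namespace Fermat.Agent.S48.Igusa1.Deg

open Fermat.Agent.GAL.Gauss Fermat.Agent.S48.Full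

variable {K : Type} [Field K] [IsAlgClosed K] (ι : K →+* ℂ) (A : ValuationSubring K)
  (M : ℕ) [NeZero M]

include ι in
/-- **(E1) the degree in characteristic `p`.** -/
theorem finrank_k (hM : ((M : ℕ) : IsLocalRing.ResidueField ↥A) ≠ 0) :
    Module.finrank ↥(IntermediateField.adjoin (IsLocalRing.ResidueField ↥A)
      {jFF (IsLocalRing.ResidueField ↥A) M})
      (FS (IsLocalRing.ResidueField ↥A) (gensC (IsLocalRing.ResidueField ↥A) M)) =
      Nat.card (SL(2, ℤ) ⧸ GammaPM M) := by
  have := finiteDimensional_k ι A M hM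
  refine le_antisymm (finrank_k_le ι A M hM) ?_
  have h := index_ker_le_finrank (actK ι A M hM)
    (IntermediateField.adjoin (IsLocalRing.ResidueField ↥A) {jFF (IsLocalRing.ResidueField ↥A) M})
    (fun g x hx => actK_eq_self_of_mem ι A M hM g x hx)
  rw [ker_actK] at h
  exact h

include ι in
/-- **(E2) Galois.** -/
theorem isGalois_k (hM : ((M : ℕ) : IsLocalRing.ResidueField ↥A) ≠ 0)
    (hfi : (GammaPM M).index ≠ 0) :
    IsGalois ↥(IntermediateField.adjoin (IsLocalRing.ResidueField ↥A)
      {jFF (IsLocalRing.ResidueField ↥A) M})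
      (FS (IsLocalRing.ResidueField ↥A) (gensC (IsLocalRing.ResidueField ↥A) M)) := by
  refine isGalois_of_finrank_eq (actK ι A M hM) _
    (fun g x hx => actK_eq_self_of_mem ι A M hM g x hx) ?_ ?_
  · rw [ker_actK, finrank_k ι A M hM]
    rfl
  · rw [ker_actK]
    exact hfi

end Fermat.Agent.S48.Igusa1.Deg
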