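import Fermat.Agent.S48.Igusa1.Deg.Defs

/-!
# S48 / IGUSA1 / DEGREE (L6) : the Gauss ring and `q ↦ t^M`; the Gauss valuation of `K(j(t^M))`
-/

set_option autoImplicit false
set_option linter.unusedSectionVars false

open ModularCurve
open scoped MatrixGroups

noncomputable section

namespace Fermat.Agent.S48.Igusa1.Deg

open Fermat.Agent.GAL.Gauss Fermat.Agent.S48.Full

variable {K : Type} [Field K] (A : ValuationSubring K) (M : ℕ) [NeZero M]

/-- **(L6a)** apply `qExpand` to `iA g * x = iA z`. -/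
theorem qExpand_mem_gRing {x : LaurentSeries K} (hx : x ∈ gRing A) : qExpand K M x ∈ gRing A := by
  obtain ⟨z, g, hg, h⟩ := hx
  refine ⟨qExpand ↥A M z, qExpand ↥A M g, ?_, ?_⟩
  · rw [pA_qExpand]
    exact (map_ne_zero_iff _ (qExpand_injective M)).mpr hg
  · rw [iA_qExpand, iA_qExpand, ← h, map_mul]

theorem gRes_qExpand {x : LaurentSeries K} (hx : x ∈ gRing A) :
    gRes A ⟨qExpand K M x, qExpand_mem_gRing A M hx⟩ =
      qExpand (IsLocalRing.ResidueField ↥A) M (gRes A ⟨x, hx⟩) := by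
  obtain ⟨z, g, hg, h⟩ := (mem_gRing_iff A).mp hx
  have hg' : pA A (qExpand ↥A M g) ≠ 0 := by
    rw [pA_qExpand]
    exact (map_ne_zero_iff _ (qExpand_injective M)).mpr hg
  have e0 : iA A (qExpand ↥A M g) * qExpand K M x = iA A (qExpand ↥A M z) := by
    rw [iA_qExpand, iA_qExpand, ← h, map_mul]
  have e1 := gRes_eq A ⟨qExpand K M x, qExpand_mem_gRing A M hx⟩ hg' e0
  have e2 := gRes_eq A ⟨x, hx⟩ hg h
  rw [e1, e2, pA_qExpand, pA_qExpand]
  exact (map_div₀ (qExpand (IsLocalRing.ResidueField ↥A) M) _ _).symm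

/-- **(L6b)** `L(j(t^M)) = qExpand M '' L(j(q))`. -/
theorem mem_adjoin_jM_iff (L : Type) [Field L] (x : LaurentSeries L) :
    x ∈ IntermediateField.adjoin L {jM L M} ↔
      ∃ x₀ ∈ IntermediateField.adjoin L {jqModC L}, x = qExpand L M x₀ := by
  have h1 : ({jM L M} : Set (LaurentSeries L)) = (⇑(qExpandAlgHomC L M) '' {jqModC L}) := by
    rw [Set.image_singleton]
    rfl
  rw [h1, ← IntermediateField.adjoin_map, IntermediateField.mem_map]
  constructor
  · rintro ⟨y, hy, rfl⟩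
    exact ⟨y, hy, rfl⟩
  · rintro ⟨y, hy, rfl⟩
    exact ⟨y, hy, rfl⟩

/-- **(L6c)** from `ratJ_val`. -/
theorem ratJM_val (c : LaurentSeries K) (hc : c ∈ IntermediateField.adjoin K {jM K M}) :
    c ∈ gRing A ∨ c⁻¹ ∈ gRing A := by
  obtain ⟨c₀, hc₀, rfl⟩ := (mem_adjoin_jM_iff M K c).mp hc
  rcases ratJ_val A c₀ hc₀ with h | h
  · exact Or.inl (qExpand_mem_gRing A M h)
  · right
    rw [← map_inv₀]
    exact qExpand_mem_gRing A M h

/-- a Gauss unit stays a Gauss unit. -/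
theorem QExp_unit {u : ↥(gRing A)} (hu : gRes A u ≠ 0) :
    gRes A ⟨qExpand K M (u : LaurentSeries K), qExpand_mem_gRing A M u.2⟩ ≠ 0 := by
  rw [gRes_qExpand A M u.2]
  exact (map_ne_zero_iff _ (qExpand_injective M)).mpr hu

/-- descent for `C a * u`. -/
theorem QExp_descent {x : LaurentSeries K} (a : K) (u : ↥(gRing A)) (hu : gRes A u ≠ 0)
    (hx : x = HahnSeries.C a * (u : LaurentSeries K)) (h : qExpand K M x ∈ gRing A) :
    x ∈ gRing A := by
  rw [hx, map_mul, qExpand_C] at h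
  have ha : a ∈ A := (C_mul_unit_mem_iff A a ⟨_, qExpand_mem_gRing A M u.2⟩ (QExp_unit A M hu)).mp h
  rw [hx]
  exact (C_mul_unit_mem_iff A a u hu).mpr ha

/-- **(L6c)**. -/
theorem ratJM_res (c : ↥(gRing A))
    (hc : (c : LaurentSeries K) ∈ IntermediateField.adjoin K {jM K M}) :
    gRes A c ∈ IntermediateField.adjoin (IsLocalRing.ResidueField ↥A)
      {jM (IsLocalRing.ResidueField ↥A) M} := by
  obtain ⟨c₀, hc₀, hcc⟩ := (mem_adjoin_jM_iff M K _).mp hc
  have hmem : c₀ ∈ gRing A := by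
    by_cases h0 : c₀ = 0
    · rw [h0]; exact zero_mem _
    obtain ⟨a, u, -, hcu, hu, -⟩ := ratJ_normalise A c₀ hc₀ h0
    exact QExp_descent A M a u hu hcu (hcc ▸ c.2)
  have h1 : c = ⟨qExpand K M c₀, qExpand_mem_gRing A M hmem⟩ := Subtype.ext hcc
  rw [h1, gRes_qExpand A M hmem, mem_adjoin_jM_iff]
  exact ⟨_, ratJ_res A ⟨c₀, hmem⟩ hc₀, rfl⟩

/-- **(L6c)** from `ratJ_lift`. -/
theorem ratJM_lift (d : LaurentSeries (IsLocalRing.ResidueField ↥A))
    (hd : d ∈ IntermediateField.adjoin (IsLocalRing.ResidueField ↥A)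
      {jM (IsLocalRing.ResidueField ↥A) M}) :
    ∃ c : ↥(gRing A), (c : LaurentSeries K) ∈ IntermediateField.adjoin K {jM K M} ∧
      gRes A c = d := by
  obtain ⟨d₀, hd₀, rfl⟩ := (mem_adjoin_jM_iff M _ d).mp hd
  obtain ⟨c₀, hc₀, rfl⟩ := ratJ_lift A d₀ hd₀
  refine ⟨⟨qExpand K M (c₀ : LaurentSeries K), qExpand_mem_gRing A M c₀.2⟩, ?_, ?_⟩
  · exact (mem_adjoin_jM_iff M K _).mpr ⟨_, hc₀, rfl⟩
  · rw [gRes_qExpand A M c₀.2]

/-- **(L6d)** descent of Gauss integrality along `qExpand` for elements of the level `M` field. -/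
theorem mem_gRing_of_qExpand (hM : ((M : ℕ) : IsLocalRing.ResidueField ↥A) ≠ 0)
    {x : LaurentSeries K} (hx : x ∈ modularFunctionFieldFullC K M)
    (h : qExpand K M x ∈ gRing A) : x ∈ gRing A := by
  by_cases h0 : x = 0
  · rw [h0]; exact zero_mem _
  obtain ⟨a, u, -, -, hxu, hu⟩ := normalise A M hM x hx h0
  exact QExp_descent A M a u hu hxu h

/-- membership in `K(jFF)` (inside `F`) versus `K(jM)` (inside `K((t))`). -/
theorem mem_adjoin_jFF_iff (L : Type) [Field L] (x : FS L (gensC L M)) :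
    x ∈ IntermediateField.adjoin L {jFF L M} ↔
      (x : LaurentSeries L) ∈ IntermediateField.adjoin L {jM L M} := by
  have h1 : (IntermediateField.adjoin L {jFF L M}).map (FS L (gensC L M)).val =
      IntermediateField.adjoin L {jM L M} := by
    rw [IntermediateField.adjoin_map, Set.image_singleton]
    rfl
  rw [← h1, IntermediateField.mem_map]
  constructor
  · intro hx
    exact ⟨x, hx, rfl⟩
  · rintro ⟨y, hy, hxy⟩
    have : y = x := Subtype.ext hxy
    rwa [← this]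

end Fermat.Agent.S48.Igusa1.Deg
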