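import Fermat.Agent.S48.Igusa1.Deg.Int
import Fermat.Agent.S48.Igusa1.Deg.QExp
import Fermat.Agent.S48.Igusa1.Deg.Abs

/-!
# S48 / IGUSA1 / DEGREE (L7) : the ring `R1`, the action of `SL₂(ℤ)` on it, the reduction map
-/

set_option autoImplicit false
set_option linter.unusedSectionVars false

open ModularCurve Matrix
open scoped MatrixGroups

noncomputable section

namespace Fermat.Agent.S48.Igusa1.Deg

open Fermat.Agent.GAL.Gauss Fermat.Agent.S48.Full

variable {K : Type} [Field K] [IsAlgClosed K] (ι : K →+* ℂ) (A : ValuationSubring K)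
  (M : ℕ) [NeZero M]

/-- **(L7a)** PROOF. `Subring.closure_le`; `R00 ≤ OF` by definition; a generator is `jM`
(`jM_mem_gRing`) or `hVec ζ v`, `v ≠ 0` (`gensC_eq`, `exists_isZeta`, `IsZeta.isPrimitiveRoot`,
`exists_isZetaA`, `IsZetaA.hVec_mem_gRing`). -/
theorem R1_le_OF (hM : ((M : ℕ) : IsLocalRing.ResidueField ↥A) ≠ 0) : R1 A M ≤ OF A M := by
  have hMK : NeZero ((M : ℕ) : K) := ⟨natCast_ne_zero_of_residue A M hM⟩
  obtain ⟨ζ₀, hζ₀⟩ := HasEnoughRootsOfUnity.exists_primitiveRoot K M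
  have hζ : IsPrimitiveRoot (hζ₀.isUnit (NeZero.ne M)).unit M :=
    IsPrimitiveRoot.coe_units_iff.mp (by simpa using hζ₀)
  obtain ⟨ζA, h⟩ := exists_isZetaA A M hM _ hζ
  rw [R1, Subring.closure_le]
  rintro x (hx | hx)
  · exact hx.1
  · have hx' := (Set.ext_iff.mp (gensC_eq hζ) (x : LaurentSeries K)).mp hx
    show (x : LaurentSeries K) ∈ gRing A
    rcases hx' with hx' | ⟨v, hv, hx'⟩
    · rw [hx']; exact jM_mem_gRing A M
    · rw [hx']; exact h.hVec_mem_gRing hv

/-- **(L7b)** `actFull` fixes `K(j)` pointwise (`GenSet.act_jF`; the fixed points of an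
algebra automorphism form an intermediate field: `IntermediateField.adjoin_le_iff` into
`IntermediateField.fixedField`, or `IntermediateField.adjoin_induction`). -/
theorem actFull_eq_self_of_mem_adjoin (g : SL(2, ℤ)) {x : FS K (gensC K M)}
    (hx : x ∈ IntermediateField.adjoin K {jFF K M}) : actFull ι M g x = x := by
  have hle : IntermediateField.adjoin K {jFF K M} ≤
      IntermediateField.fixedField (Subgroup.zpowers (actFull ι M g)) := by
    rw [IntermediateField.adjoin_simple_le_iff, IntermediateField.mem_fixedField_iff]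
    rintro _ ⟨n, rfl⟩
    have h1 : actFull ι M g ^ n = actFull ι M (g ^ n) := (map_zpow _ _ _).symm
    show (actFull ι M g ^ n) (jFF K M) = jFF K M
    rw [h1]
    exact (genSet_full ι M).act_jF (stable_full ι M) (g ^ n)
  exact (IntermediateField.mem_fixedField_iff _ _).mp (hle hx) _ (Subgroup.mem_zpowers _)

/-- **(L7b)** `actFull` permutes the generators (`actFull_hVec`, `GenSet.act_jF`, `gensC_eq`). -/
theorem actFull_mem_gensF (g : SL(2, ℤ)) {x : FS K (gensC K M)} (hx : x ∈ gensF M) :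
    actFull ι M g x ∈ gensF M := by
  obtain ⟨ζ, hζ⟩ := exists_isZeta ι M
  have hx' := (Set.ext_iff.mp (gensC_eq hζ.isPrimitiveRoot) (x : LaurentSeries K)).mp hx
  rcases hx' with hx' | ⟨v, hv, hx'⟩
  · have h1 : x = jFF K M := Subtype.ext hx'
    rw [h1]
    have h2 : actFull ι M g (jFF K M) = jFF K M := (genSet_full ι M).act_jF (stable_full ι M) g
    rw [h2]
    exact Or.inl rfl
  · have h1 : x = ⟨hVec K M ζ v,
        IntermediateField.subset_adjoin K _ (hVec_mem_gensC hζ.isPrimitiveRoot hv)⟩ :=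
      Subtype.ext hx'
    rw [h1, actFull_hVec ι M hζ g hv]
    exact hVec_mem_gensC hζ.isPrimitiveRoot (vecMul_redSL_ne_zero hv g⁻¹)

/-- **(L7b)** `Subring.closure_induction` from the two previous lemmas. -/
theorem actFull_mem_R1 (g : SL(2, ℤ)) {x : FS K (gensC K M)} (hx : x ∈ R1 A M) :
    actFull ι M g x ∈ R1 A M := by
  have hle : R1 A M ≤ (R1 A M).comap
      ((actFull ι M g : FS K (gensC K M) ≃ₐ[K] FS K (gensC K M)) :
        FS K (gensC K M) →+* FS K (gensC K M)) := by
    conv_lhs => rw [R1]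
    rw [Subring.closure_le]
    rintro x (hx | hx)
    · show actFull ι M g x ∈ R1 A M
      rw [actFull_eq_self_of_mem_adjoin ι M g hx.2]
      exact R00_le_R1 A M hx
    · exact gensF_subset_R1 A M (actFull_mem_gensF ι M g hx)
  exact hle hx

/-- The action of `g` on `R1`. -/
def actR1 (g : SL(2, ℤ)) : RingAut ↥(R1 A M) where
  toFun x := ⟨actFull ι M g x, actFull_mem_R1 ι A M g x.2⟩
  invFun x := ⟨actFull ι M g⁻¹ x, actFull_mem_R1 ι A M g⁻¹ x.2⟩
  left_inv x := by
    apply Subtype.ext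
    show actFull ι M g⁻¹ (actFull ι M g x) = x
    rw [← AlgEquiv.mul_apply, ← map_mul, inv_mul_cancel, map_one]
    rfl
  right_inv x := by
    apply Subtype.ext
    show actFull ι M g (actFull ι M g⁻¹ x) = x
    rw [← AlgEquiv.mul_apply, ← map_mul, mul_inv_cancel, map_one]
    rfl
  map_mul' x y := Subtype.ext (map_mul (actFull ι M g) (x : FS K (gensC K M)) y)
  map_add' x y := Subtype.ext (map_add (actFull ι M g) (x : FS K (gensC K M)) y)

/-- **The action of `SL₂(ℤ)` on `R1`.** -/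
def actR : SL(2, ℤ) →* RingAut ↥(R1 A M) where
  toFun := actR1 ι A M
  map_one' := by
    refine RingEquiv.ext fun x => Subtype.ext ?_
    show actFull ι M 1 (x : FS K (gensC K M)) = x
    rw [map_one]
    rfl
  map_mul' g g' := by
    refine RingEquiv.ext fun x => Subtype.ext ?_
    show actFull ι M (g * g') (x : FS K (gensC K M)) = actFull ι M g (actFull ι M g' x)
    rw [map_mul]
    rfl

theorem coe_actR (g : SL(2, ℤ)) (x : ↥(R1 A M)) :
    ((actR ι A M g x : ↥(R1 A M)) : FS K (gensC K M)) = actFull ι M g x := rfl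

/-- **The reduction map on `R1`.** -/
def res1 (hM : ((M : ℕ) : IsLocalRing.ResidueField ↥A) ≠ 0) :
    ↥(R1 A M) →+* LaurentSeries (IsLocalRing.ResidueField ↥A) :=
  (resOF A M).comp (Subring.inclusion (R1_le_OF A M hM))

theorem res1_apply (hM : ((M : ℕ) : IsLocalRing.ResidueField ↥A) ≠ 0) (x : ↥(R1 A M)) :
    res1 A M hM x = gRes A ⟨((x : FS K (gensC K M)) : LaurentSeries K), R1_le_OF A M hM x.2⟩ := rfl

/-- **(L7c)** invariants of `R1`: `GenSet.mem_adjoin_jF_of_fixed`, `R1_le_OF`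
(`(genSet_full ι M).jF = jFF K M` by `rfl`; `FiniteIndex (GammaPM M)`: look in `Full/Eis4Mod`, `InstA`,
or deduce from `Gamma_le_GammaPM` and `Subgroup.finiteIndex_of_le`). -/
theorem mem_R00_of_fixed (hM : ((M : ℕ) : IsLocalRing.ResidueField ↥A) ≠ 0) (x : ↥(R1 A M))
    (hx : ∀ g, actR ι A M g x = x) : (x : FS K (gensC K M)) ∈ R00 A M := by
  refine ⟨R1_le_OF A M hM x.2, ?_⟩
  exact (genSet_full ι M).mem_adjoin_jF_of_fixed (stable_full ι M) (x : FS K (gensC K M))
    fun g => congrArg Subtype.val (hx g)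

theorem actR_eq_self_of_mem_R00 (g : SL(2, ℤ)) (x : ↥(R1 A M))
    (hx : (x : FS K (gensC K M)) ∈ R00 A M) : actR ι A M g x = x :=
  Subtype.ext (actFull_eq_self_of_mem_adjoin ι M g hx.2)

end Fermat.Agent.S48.Igusa1.Deg
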