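import Fermat.Agent.S48.Igusa1.Deg.HB
import Fermat.Agent.S48.Igusa1.Deg.AbsTrans
import Fermat.Agent.S48.Igusa1.Deg.Grp

/-!
# S48 / IGUSA1 / DEGREE (L12) : the decomposition group is everything
-/

set_option autoImplicit false
set_option linter.unusedSectionVars false

open ModularCurve Matrix Polynomial
open scoped MatrixGroups

noncomputable section

namespace Fermat.Agent.S48.Igusa1.Deg

open Fermat.Agent.GAL.Gauss Fermat.Agent.S48.Full

variable {K : Type} [Field K] [IsAlgClosed K] (ι : K →+* ℂ) (A : ValuationSubring K)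
  (M : ℕ) [NeZero M]

/-- **(L12a)** PROOF. It suffices that `T⁻¹ ∈ Stab`.  `coe_actFull_T_inv hζ x : (actFull T⁻¹ x : series) =
S28.twist ζ x` (`ζ` from `exists_isZeta`, `ζA` from `exists_isZetaA`), `IsZetaA.gRes_twist`, and
`S28.twist c z = 0 ↔ z = 0` (coefficients multiplied by units). -/
theorem T_mem_Stab (hM : ((M : ℕ) : IsLocalRing.ResidueField ↥A) ≠ 0) :
    ModularGroup.T ∈ Stab (actR ι A M) (res1 A M hM) := by
  obtain ⟨ζ, hζ⟩ := exists_isZeta ι M
  obtain ⟨ζA, hA⟩ := exists_isZetaA A M hM ζ hζ.isPrimitiveRoot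
  have hinv : ModularGroup.T⁻¹ ∈ Stab (actR ι A M) (res1 A M hM) := by
    intro x
    have hx : ((x : FS K (gensC K M)) : LaurentSeries K) ∈ gRing A := R1_le_OF A M hM x.2
    have e : res1 A M hM (actR ι A M ModularGroup.T⁻¹ x) =
        S28.twist (zetaK A ζA) (res1 A M hM x) := by
      rw [res1_apply, res1_apply, ← hA.gRes_twist hx]
      congr 1
      apply Subtype.ext
      exact coe_actFull_T_inv ι M hζ _
    rw [e]
    exact map_eq_zero_iff _ (Int_twist_injective _)
  have := (Stab (actR ι A M) (res1 A M hM)).inv_mem hinv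
  rwa [inv_inv] at this

theorem Gamma_le_Stab (hM : ((M : ℕ) : IsLocalRing.ResidueField ↥A) ≠ 0) :
    CongruenceSubgroup.Gamma M ≤ Stab (actR ι A M) (res1 A M hM) := by
  intro g hg x
  have : actR ι A M g x = x :=
    Subtype.ext (actFull_eq_self_of_mem ι M (Gamma_le_GammaPM M hg) (x : FS K (gensC K M)))
  rw [this]

/-- **(L12b)** the image of `SL₂(ℤ)` in `RingAut R1` is finite: `actR g` only depends on the class of
`g` modulo `Γ(M)` (`actFull_eq_self_of_mem`), which has finite index
(`CongruenceSubgroup.Gamma` is the kernel of a hom to a finite group: `Subgroup.finiteIndex_ker`, or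
search `FiniteIndex (Gamma`).  `Set.Finite.subset` of the range of the induced map on the quotient. -/
theorem finite_range_actR (B : Subgroup SL(2, ℤ)) :
    (Set.range fun b : B => actR ι A M b).Finite := by
  have hle : CongruenceSubgroup.Gamma M ≤ (actR ι A M).ker := by
    intro g hg
    rw [MonoidHom.mem_ker]
    refine RingEquiv.ext fun x => ?_
    exact Subtype.ext
      (actFull_eq_self_of_mem ι M (Gamma_le_GammaPM M hg) (x : FS K (gensC K M)))
  have hfi : (actR ι A M).ker.FiniteIndex := Subgroup.finiteIndex_of_le hle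
  have hfin : Finite (actR ι A M).range :=
    Finite.of_equiv _ (QuotientGroup.quotientKerEquivRange (actR ι A M)).toEquiv
  have hfin' : ((actR ι A M).range : Set (RingAut ↥(R1 A M))).Finite := hfin
  refine hfin'.subset ?_
  rintro _ ⟨b, rfl⟩
  exact ⟨b, rfl⟩

/-- **`Stab = ⊤`.** -/
theorem Stab_eq_top (hM : ((M : ℕ) : IsLocalRing.ResidueField ↥A) ≠ 0) :
    Stab (actR ι A M) (res1 A M hM) = ⊤ :=
  eq_top_of_decomp M _ (T_mem_Stab ι A M hM) (Gamma_le_Stab ι A M hM) fun g =>
    exists_mul_inv_mem_Stab (actR ι A M) (res1 A M hM) (res1_field ι A M hM)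
      (CongruenceSubgroup.Gamma0 M) (finite_range_actR ι A M _)
      (res1_actR_ne_zero_of_fixed ι A M hM) g

end Fermat.Agent.S48.Igusa1.Deg
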